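import Fermat.Agent.PSEMI.LevelMp.Cusps
import Fermat.Agent.BAD.Trace2
import Fermat.Agent.Curve.Red.JLevel
import Fermat.Agent.ES.Local.FinGen
import Fermat.Agent.PSEMI.Coef

/-!
# Bounded expansions at level `Γ₀(p) ∩ Γ(M)`

With `J = j(pτ)` and `J_x` its translates, `f ∏_{x ≠ 1} (J - J_x)` is a combination of traces to
level `M`, and the product has an invertible leading coefficient at `∞`.
-/

set_option autoImplicit false

open UpperHalfPlane CongruenceSubgroup
open scoped MatrixGroups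
open FermatAgent.Curve (jFun)
open ModularCurve (qExpand jqModC)

noncomputable section

namespace FermatAgent.PSEMI.LevelMp

open FermatAgent.ES (CPlace AuxLevel BSub BRing SerIn HasLExp lexp lexp_eq hasLExp_lexp act twistSer
  zetaC LeadUnit expHom)
open FermatAgent.BAD (lam LSub LRing mem_LRing CosetL cosetRep trL dilFun expandL atkin)

variable {p M : ℕ} [hp : Fact p.Prime] [NeZero M]

omit hp in
/-- Roots of unity have absolute value `1`. -/
theorem abv_zetaC (P : CPlace p) (N : ℕ) [NeZero N] : P.abv (zetaC N) = 1 :=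
  P.abv_eq_one_of_pow_eq_one (NeZero.ne N) (ES.zetaC_isPrimitiveRoot N).pow_eq_one

omit hp in
/-- Roots of unity are integral. -/
theorem zetaC_mem (P : CPlace p) (N : ℕ) [NeZero N] : zetaC N ∈ P.ring :=
  (abv_zetaC P N).le

/-- Expanding multiplies the order bound of a series by `p`. -/
theorem expandL_coeff_of_lt {s : LaurentSeries ℂ} {k : ℤ} (hs : ∀ n < k, s.coeff n = 0) {n : ℤ}
    (hn : n < p * k) : (expandL p s).coeff n = 0 := by
  by_cases hd : (p : ℤ) ∣ n
  · obtain ⟨i, rfl⟩ := hd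
    rw [BAD.expandL_coeff_mul]
    exact hs i (lt_of_mul_lt_mul_left hn (Nat.cast_nonneg p))
  · exact BAD.expandL_coeff_of_not_dvd p s hd

/-- Expanding a series with unit leading coefficient at `k` gives one with unit leading coefficient
at `p k`. -/
theorem leadUnit_expandL {A : Subring ℂ} {s : LaurentSeries ℂ} {k : ℤ}
    (h : ES.LeadUnit A s k) : ES.LeadUnit A (expandL p s) ((p : ℤ) * k) := by
  refine ES.LeadUnit.of_coeff (BAD.expandL_serIn h.serIn) (fun n hn => ?_) ?_
  · exact expandL_coeff_of_lt (fun i hi => h.coeff_of_lt hi) hn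
  · rw [BAD.expandL_coeff_mul]; exact h.unitIn_coeff

variable (M) in
/-- The translate of `j (p τ)` attached to a coset. -/
def jTr (x : CosetL p M) : ℍ → ℂ := act (cosetRep p M x)⁻¹ (dilFun p jFun)

theorem act_dilFun_jFun {γ : SL(2, ℤ)} (hγ : γ ∈ Gamma0 p) :
    act γ (dilFun p jFun) = dilFun p jFun := funext fun τ => by
  rw [ES.act_apply, BAD.dilFun_apply, show γ = ((⟨γ, hγ⟩ : Gamma0 p) : SL(2, ℤ)) from rfl,
    dilPt_smul, Curve.jFun_smul]
  rfl

variable (hM : M.Coprime p)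
include hM

theorem dilJ_mem {O : Subring ℂ} (hζ : zetaC (p * M) ∈ O) : dilFun p jFun ∈ LRing p M O :=
  BAD.dilFun_mem_LRing hM hζ (Curve.Red.jFun_mem_BRing O)

theorem jTr_mem {O : Subring ℂ} (hζ : zetaC (p * M) ∈ O) (x : CosetL p M) :
    jTr M x ∈ BRing (p * M) O :=
  ES.act_mem_BRing (dilJ_mem hM hζ).1 _

theorem leadUnit_jTr_sub {O : Subring ℂ} (hζ : zetaC (p * M) ∈ O) {x : CosetL p M}
    (hx : x ≠ ((1 : Gamma M) : CosetL p M)) :
    LeadUnit O (lexp (p * M) 1 (dilFun p jFun - jTr M x)) (-((p * p * M : ℕ) : ℤ)) := by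
  have hp1 := hp.out.one_lt
  obtain ⟨hJ1, hJlt⟩ := Curve.Red.lead_qExpand_jqModC M
  have hnot : ¬ (p : ℤ) ∣ (cosetRep p M x)⁻¹ 1 0 := fun h => BAD.cosetRep_not_mem hx (by
    simpa using inv_mem (BAD.mem_Gamma0_dvd.mpr h : (cosetRep p M x)⁻¹ ∈ Gamma0 p))
  obtain ⟨j, -, hj⟩ := BAD.exists_ctr_index p hp.out hM _ hnot
  obtain ⟨γ', -, -, -, -, hconj⟩ := BAD.exists_ctr_conj p _ j hj
  have e2 : HasLExp (p * M) (act (cosetRep p M x)⁻¹ (dilFun p jFun))
      (twistSer (zetaC (p * M) ^ j) (qExpand ℂ M (jqModC ℂ))) :=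
    BAD.hasLExp_ctr_conj p (Curve.Red.hasLExp_act_jFun γ') hconj
  have e1 : HasLExp (p * M) (dilFun p jFun) (expandL p (expandL p (qExpand ℂ M (jqModC ℂ)))) := by
    have h := Curve.Red.hasLExp_act_jFun (M := M) 1
    rw [ES.act_one] at h
    exact BAD.hasLExp_raise p (BAD.hasLExp_dilFun p h)
  have e3 : lexp (p * M) 1 (dilFun p jFun - jTr M x) =
      expandL p (expandL p (qExpand ℂ M (jqModC ℂ))) -
        twistSer (zetaC (p * M) ^ j) (qExpand ℂ M (jqModC ℂ)) :=
    lexp_eq (by rw [ES.act_one]; exact e1.sub e2)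
  rw [e3]
  have hMp : (M : ℤ) < (p * p * M : ℕ) := by
    exact_mod_cast lt_mul_left (NeZero.pos M) (by nlinarith)
  refine LeadUnit.of_coeff ?_ (fun n hn => ?_) ?_
  · exact SerIn.sub (BAD.expandL_serIn (BAD.expandL_serIn
      (Curve.Red.serIn_qExpand (Curve.Red.serIn_jqModC O) M)))
      (BAD.serIn_twist (Curve.Red.serIn_qExpand (Curve.Red.serIn_jqModC O) M) hζ j)
  · rw [HahnSeries.coeff_sub, ES.coeff_twistSer, hJlt n (by omega), zero_mul, sub_zero]
    refine expandL_coeff_of_lt (k := (p : ℤ) * -(M : ℤ))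
      (fun i hi => expandL_coeff_of_lt hJlt hi) ?_
    push_cast at hn
    linarith
  · rw [HahnSeries.coeff_sub, ES.coeff_twistSer, hJlt _ (by omega), zero_mul, sub_zero,
      show -((p * p * M : ℕ) : ℤ) = (p : ℤ) * ((p : ℤ) * -(M : ℤ)) by push_cast; ring,
      BAD.expandL_coeff_mul, BAD.expandL_coeff_mul, hJ1]
    exact ES.UnitIn.one

/-- Traces with integral expansions give an integral expansion at `∞`. -/
theorem serIn_of_traces {O : Subring ℂ} (hζ : zetaC (p * M) ∈ O) {f : ℍ → ℂ}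
    (hf : f ∈ LSub p M)
    (h : ∀ k ≤ Fintype.card (CosetL p M),
      trL p M (dilFun p jFun ^ k * f) ∈ BRing M O) :
    SerIn O (lexp (p * M) 1 f) := by
  classical
  set x1 : CosetL p M := ((1 : Gamma M) : CosetL p M)
  set J : BRing (p * M) O := ⟨dilFun p jFun, (dilJ_mem hM hζ).1⟩
  set Jx : CosetL p M → BRing (p * M) O := fun x => ⟨jTr M x, jTr_mem hM hζ x⟩
  set Q : Polynomial (BRing (p * M) O) :=
    ∏ x ∈ Finset.univ.erase x1, (Polynomial.X - Polynomial.C (Jx x))
  have hdeg : Q.natDegree < Fintype.card (CosetL p M) + 1 := by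
    refine Nat.lt_succ_of_le ((Polynomial.natDegree_prod_le _ _).trans ?_)
    refine (Finset.sum_le_card_nsmul _ _ 1 fun x _ => Polynomial.natDegree_X_sub_C_le _).trans ?_
    simp
  set T : ℕ → BRing (p * M) O := fun k =>
    if hk : k ≤ Fintype.card (CosetL p M) then
      ⟨trL p M (dilFun p jFun ^ k * f), (BAD.mem_LRing_of_BRing (h k hk)).1⟩ else 0
  set D : BRing (p * M) O := ∏ x ∈ Finset.univ.erase x1, (J - Jx x)
  have heval : ∀ y : BRing (p * M) O, Q.eval y = ∏ x ∈ Finset.univ.erase x1, (y - Jx x) :=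
    fun y => by simp [Q, Polynomial.eval_prod]
  have hinvf : ∀ h ∈ lam p M, act h f = f := hf.2
  have hfx : act (cosetRep p M x1)⁻¹ f = f := by
    rw [BAD.act_rep_inv hinvf, Subgroup.coe_one, inv_one, ES.act_one]
  have hJx1 : Jx x1 = J := Subtype.ext (by
    show act (cosetRep p M x1)⁻¹ (dilFun p jFun) = dilFun p jFun
    rw [BAD.act_rep_inv (fun h hh => act_dilFun_jFun hh.1), Subgroup.coe_one, inv_one, ES.act_one])
  have key : (D : ℍ → ℂ) * f =
      ∑ k ∈ Finset.range (Fintype.card (CosetL p M) + 1), (Q.coeff k : ℍ → ℂ) * (T k : ℍ → ℂ) := by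
    have e : ∀ k ∈ Finset.range (Fintype.card (CosetL p M) + 1),
        (Q.coeff k : ℍ → ℂ) * (T k : ℍ → ℂ) =
        ∑ x, ((Q.coeff k * Jx x ^ k : BRing (p * M) O) : ℍ → ℂ) *
          act (cosetRep p M x)⁻¹ f := by
      intro k hk
      rw [show T k = ⟨trL p M (dilFun p jFun ^ k * f), _⟩ from
        dif_pos (Nat.lt_succ_iff.mp (Finset.mem_range.mp hk))]
      show (Q.coeff k : ℍ → ℂ) * trL p M (dilFun p jFun ^ k * f) = _
      rw [trL, Finset.mul_sum]
      refine Finset.sum_congr rfl fun x _ => ?_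
      rw [ES.act_mulFun, show act (cosetRep p M x)⁻¹ (dilFun p jFun ^ k) = jTr M x ^ k from
        map_pow (ES.actHom _) _ k, Subring.coe_mul, SubmonoidClass.coe_pow]
      ring
    rw [Finset.sum_congr rfl e, Finset.sum_comm, Finset.sum_eq_single x1]
    · rw [← Finset.sum_mul, ← AddSubmonoidClass.coe_finsetSum,
        ← Polynomial.eval_eq_sum_range' hdeg, heval, hJx1, hfx]
    · intro x _ hx
      rw [← Finset.sum_mul, ← AddSubmonoidClass.coe_finsetSum,
        ← Polynomial.eval_eq_sum_range' hdeg, heval,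
        Finset.prod_eq_zero (Finset.mem_erase.mpr ⟨hx, Finset.mem_univ x⟩) (sub_self _)]
      simp
    · simp
  let E := expHom (M := p * M) 1
  let ι : BRing (p * M) O →+* BSub (p * M) :=
    (BRing (p * M) O).subtype.codRestrict (BSub (p * M)) fun g => g.2.1
  have hιE : ∀ g, SerIn O (E (ι g)) := fun g => g.2.2 1
  obtain ⟨k0, hk0⟩ : ∃ k, LeadUnit O (E (ι D)) k := by
    suffices hs : ∀ s ⊆ Finset.univ.erase x1, ∃ k, LeadUnit O (E (ι (∏ x ∈ s, (J - Jx x)))) k from
      hs _ subset_rfl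
    intro s
    induction s using Finset.induction_on with
    | empty => exact fun _ => ⟨0, by simpa using LeadUnit.one⟩
    | insert x s hxs ih =>
      intro hsub
      obtain ⟨k, hk⟩ := ih ((Finset.subset_insert x s).trans hsub)
      refine ⟨-((p * p * M : ℕ) : ℤ) + k, ?_⟩
      rw [Finset.prod_insert hxs, map_mul, map_mul]
      exact (leadUnit_jTr_sub hM hζ
        (Finset.ne_of_mem_erase (hsub (Finset.mem_insert_self x s)))).mul hk
  have key' : ι D * ⟨f, hf.1⟩ = ∑ k ∈ Finset.range (Fintype.card (CosetL p M) + 1),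
      ι (Q.coeff k) * ι (T k) := Subtype.ext (by
    rw [MulMemClass.coe_mul, AddSubmonoidClass.coe_finsetSum]
    exact key)
  have key2 := congrArg E key'
  rw [map_mul, map_sum] at key2
  have hin : SerIn O (E (ι D) * lexp (p * M) 1 f) := by
    rw [show lexp (p * M) 1 f = E ⟨f, hf.1⟩ from rfl, key2]
    exact SerIn.sum _ fun k _ => by rw [map_mul]; exact (hιE _).mul (hιE _)
  have := hk0.inv.serIn.mul hin
  rwa [← mul_assoc, inv_mul_cancel₀ hk0.ne_zero, one_mul] at this

variable {m : ℕ} (haux : AuxLevel M m) {P : CPlace p} (K : Coeffs P)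
include haux

/-- A function of level `M` is, up to scaling, defined over a finitely generated ring. -/
theorem exists_scale_BRing {g : ℍ → ℂ} (hg : g ∈ BSub M) :
    ∃ (a : ℂ) (S : Finset ℂ), a ≠ 0 ∧ P.abv a ≤ 1 ∧ (S : Set ℂ) ⊆ P.ring ∧
      ∀ O : Subring ℂ, ES.GoodRoot M O (zetaC M) → (S : Set ℂ) ⊆ O → a • g ∈ BRing M O := by
  rcases eq_or_ne g 0 with rfl | hg0
  · exact ⟨1, ∅, one_ne_zero, by simp, by simp, fun O _ _ => by rw [smul_zero]; exact zero_mem _⟩
  obtain ⟨a, ha, g', hg', e, -⟩ := Curve.Red.exists_normalize_one P haux hM hg hg0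
  obtain ⟨n, hn⟩ := exists_pow_lt_of_lt_one (P.abv.pos ha) P.lt_one
  have hb : P.abv ((p : ℂ) ^ n / a) ≤ 1 := by
    rw [map_div₀, map_pow, div_le_one (P.abv.pos ha)]; exact hn.le
  have hpn : (fun _ : ℍ => (p : ℂ) ^ n) * g' ∈ BRing M P.ring :=
    mul_mem (ES.const_mem_BRing (P.ring.pow_mem (natCast_mem P.ring p) n)) hg'
  obtain ⟨S, hS, H⟩ := ES.exists_finset_mem_BRing haux (P.goodRoot hM) hpn
  refine ⟨(p : ℂ) ^ n / a, S, div_ne_zero (pow_ne_zero _ (Nat.cast_ne_zero.mpr (NeZero.ne p))) ha,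
    hb, hS, fun O hO hSO => ?_⟩
  convert H O hO hSO using 1
  rw [e]
  funext τ
  simp only [Pi.smul_apply, Pi.mul_apply, smul_eq_mul]
  field_simp

/-- Expansions at `∞` are bounded over finitely generated rings. -/
theorem exists_fine_inf {f : ℍ → ℂ} (hf : f ∈ LSub p M) :
    ∃ a : ℂ, a ≠ 0 ∧ Fine K (HahnSeries.C a * lexp M 1 f) := by
  classical
  set n := Fintype.card (CosetL p M)
  have hJf : ∀ k, dilFun p jFun ^ k * f ∈ LSub p M := fun k =>
    mul_mem (pow_mem (dilJ_mem hM (O := P.ring) (zetaC_mem P _)).2 k) hf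
  choose a S ha hale hS H using fun k : Fin (n + 1) =>
    exists_scale_BRing (P := P) hM haux (BAD.trL_mem_BSub (hJf k))
  set U : Finset ℂ := insert (zetaC (p * M)) (insert (zetaC M)
    (Finset.univ.biUnion S ∪ Finset.univ.image a))
  have hU : (U : Set ℂ) ⊆ P.ring := by
    intro z hz
    simp only [U, Finset.coe_insert, Finset.coe_union, Set.mem_insert_iff, Set.mem_union,
      Finset.coe_biUnion, Finset.coe_image, Set.mem_iUnion, Set.mem_image] at hz
    rcases hz with rfl | rfl | ⟨k, -, hk⟩ | ⟨k, -, rfl⟩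
    · exact zetaC_mem P _
    · exact zetaC_mem P _
    · exact hS k hk
    · exact hale k
  set O := K.R U
  have hUO := K.subset hU
  have hζ : zetaC (p * M) ∈ O := hUO (by simp [U])
  have hgood : ES.GoodRoot M O (zetaC M) :=
    (K.isCDVR hU).goodRoot (P.goodRoot hM) (hUO (by simp [U]))
  set A := ∏ k, a k
  have haf : A • f ∈ LSub p M := (LSub p M).smul_mem hf A
  have htr : ∀ k ≤ n, trL p M (dilFun p jFun ^ k * (A • f)) ∈ BRing M O := by
    intro k hk
    set k' : Fin (n + 1) := ⟨k, Nat.lt_succ_of_le hk⟩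
    have e : trL p M (dilFun p jFun ^ k * (A • f)) =
        (fun _ : ℍ => ∏ i ∈ Finset.univ.erase k', a i) *
          (a k' • trL p M (dilFun p jFun ^ k * f)) := by
      rw [trL, trL, Finset.smul_sum, Finset.mul_sum]
      refine Finset.sum_congr rfl fun x _ => funext fun τ => ?_
      simp only [ES.act_apply, Pi.mul_apply, Pi.smul_apply, smul_eq_mul, A]
      rw [← Finset.mul_prod_erase _ _ (Finset.mem_univ k')]
      ring
    rw [e]
    refine mul_mem (ES.const_mem_BRing (O.prod_mem fun i _ => hUO ?_))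
      (H k' O hgood fun z hz => hUO ?_)
    · simp [U]
    · simp only [U, Finset.coe_insert, Finset.coe_union, Set.mem_insert_iff, Set.mem_union,
        Finset.coe_biUnion, Set.mem_iUnion]
      exact Or.inr (Or.inr (Or.inl ⟨k', by simp, hz⟩))
  have hser := serIn_of_traces hM hζ haf htr
  have e : lexp M 1 (A • f) = HahnSeries.C A * lexp M 1 f := lexp_eq (by
    rw [ES.act_smulFun]
    exact ((HasLExp.const A).mul (hasLExp_inf hf (one_mem _))).congr_fun fun τ => rfl)
  refine ⟨A, Finset.prod_ne_zero_iff.mpr fun k _ => ha k, U, hU, ?_⟩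
  rw [← e]
  intro i
  rw [← BAD.expandL_coeff_mul p, ← lexp_inf_level haf (one_mem _)]
  exact hser _

/-- The axiom `bound` for the model. -/
theorem model_bound : ∀ f ∈ (model p M hM).Fun, ∀ x : (model p M hM).C,
    ∃ a : ℂ, a ≠ 0 ∧ Fine K (HahnSeries.C a * (model p M hM).E x f) := by
  intro f hf x
  rw [mem_Fun_iff] at hf
  have key : ∀ g ∈ LSub p M, ∀ c : CI M,
      ∃ a : ℂ, a ≠ 0 ∧ Fine K (HahnSeries.C a * lexp M (repI hM c) g) := by
    intro g hg c
    have hR := repI_mem hM c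
    have hg' : act (repI hM c) g ∈ LSub p M := by
      refine ⟨ES.act_mem_BSub hg.1 _, fun γ hγ => ?_⟩
      rw [← ES.act_mul, show repI hM c * γ = (repI hM c * γ * (repI hM c)⁻¹) * repI hM c by group,
        ES.act_mul, hg.2 _ (BAD.lam_normalised hR hγ)]
    obtain ⟨a, ha, hfine⟩ := exists_fine_inf hM haux K hg'
    exact ⟨a, ha, by rwa [ES.lexp_act, mul_one] at hfine⟩
  rcases x with ⟨c, b⟩
  cases b
  · rw [E_inf hf]; exact key f hf c
  · rw [E_zero' hf]; exact key _ (BAD.atkin_mem_LSub hM hf) c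

end FermatAgent.PSEMI.LevelMp
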