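import Fermat.Agent.PSEMI.LevelMp.Bound
import Fermat.Agent.PSEMI.CharSeries
import Fermat.Agent.PSEMI.Good
import Fermat.Agent.BAD.Kron
import Fermat.Agent.Curve.Red.Galois

/-!
# The two components of the reduction

On each component a reduction comes from level `M`, through the trace.
-/

set_option autoImplicit false

open UpperHalfPlane CongruenceSubgroup
open scoped MatrixGroups

noncomputable section

namespace FermatAgent.PSEMI.LevelMp

open FermatAgent.ES (CPlace AuxLevel BSub BRing SerIn HasLExp lexp lexp_eq hasLExp_lexp act twistSer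
  zetaC)
open FermatAgent.Curve.Red (ResField placeDatum)
open FermatAgent.BAD (lam LSub LRing mem_LRing CosetL cosetRep trL trB dilFun expandL atkin atkinL
  atkinMat)

variable {p M : ℕ} [hp : Fact p.Prime] [NeZero M] {P : CPlace p} (hM : M.Coprime p)

variable (P)

/-- The reduced expansion at `γ` at level `M`. -/
abbrev rH (γ : SL(2, ℤ)) : BRing M P.ring →+* LaurentSeries (ResField P) :=
  (placeDatum P M hM).redHom γ

variable {P}

section

omit hp

/-- The reduced expansion is the reduction of the expansion. -/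
theorem rH_apply (γ : SL(2, ℤ)) (f : BRing M P.ring) :
    rH P hM γ f = red (lexp M γ (f : ℍ → ℂ)) := by
  ext n
  rw [coeff_red (f.2.2 γ)]
  rfl

variable (P) in
/-- The action on integral functions of level `M`. -/
def actR (γ : SL(2, ℤ)) : BRing M P.ring →+* BRing M P.ring :=
  ((ES.actHom γ).comp (BRing M P.ring).subtype).codRestrict _ fun f => ES.act_mem_BRing f.2 γ

theorem coe_actR (γ : SL(2, ℤ)) (f : BRing M P.ring) :
    ((actR P γ f : BRing M P.ring) : ℍ → ℂ) = act γ (f : ℍ → ℂ) := rfl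

/-- The reduced expansion of a translate at `δ` is that of the function at `γ δ`. -/
theorem rH_actR (γ δ : SL(2, ℤ)) (f : BRing M P.ring) :
    rH P hM δ (actR P γ f) = rH P hM (γ * δ) f := by
  rw [rH_apply, rH_apply, coe_actR, ES.lexp_act]

/-- Functions with equal reduced expansions at one cusp have equal ones at all cusps of level `M`.
-/
theorem rH_congr {m : ℕ} (haux : AuxLevel M m) {f g : BRing M P.ring} {γ : SL(2, ℤ)}
    (δ : SL(2, ℤ)) (h : rH P hM γ f = rH P hM γ g) : rH P hM δ f = rH P hM δ g :=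
  (placeDatum P M hM).redHom_congr haux δ h

end

include hM

omit hM in
/-- Integral functions have integral expansions of width `M` at the cusps of type `∞`. -/
theorem serIn_inf {f : ℍ → ℂ} {O : Subring ℂ} (hf : f ∈ LRing p M O) {γ : SL(2, ℤ)}
    (hγ : γ ∈ Gamma0 p) : SerIn O (lexp M γ f) := fun n => by
  rw [← BAD.expandL_coeff_mul p, ← lexp_inf_level hf.2 hγ]
  exact (mem_LRing.mp hf).2 γ _

/-- Integrality in the model is membership in the integral ring. -/
theorem integral_iff {f : ℍ → ℂ} (hf : f ∈ LSub p M) :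
    (model p M hM).Integral P f ↔ f ∈ LRing p M P.ring := by
  refine ⟨fun h => mem_LRing.mpr ⟨hf, fun γ => ?_⟩, fun h x => ?_⟩
  · by_cases hγ : γ ∈ Gamma0 p
    · obtain ⟨c, k, hck⟩ := exists_twist_inf hM hγ
      rw [lexp_inf_level hf hγ, hck f hf]
      refine BAD.expandL_serIn (BAD.serIn_twist ?_ (zetaC_mem P M) k)
      rw [← E_inf (hM := hM) hf]
      exact h (c, false)
    · obtain ⟨c, k, hck⟩ := exists_twist_zero hM hγ
      rw [hck f hf]
      refine BAD.serIn_twist ?_ (zetaC_mem P _) k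
      rw [← E_zero' (hM := hM) hf]
      exact h (c, true)
  · rcases x with ⟨c, b⟩
    cases b
    · rw [E_inf hf]; exact serIn_inf h (repI_mem hM c)
    · rw [E_zero' hf]
      exact serIn_inf (BAD.atkin_mem_LRing hM (zetaC_mem P _) h) (repI_mem hM c)

/-- Integral invariant functions of the model lie in the integral ring. -/
theorem mem_LRing_of_model {f : ℍ → ℂ} (hf : f ∈ (model p M hM).Fun)
    (hfi : (model p M hM).Integral P f) : f ∈ LRing p M P.ring :=
  (integral_iff hM ((mem_Fun_iff hM).mp hf)).mp hfi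

theorem atkinMat_mul_not_mem {γ : SL(2, ℤ)} (hγ : γ ∈ Gamma0 p) :
    ¬ (p : ℤ) ∣ (atkinMat hM * γ) 1 0 := fun h => by
  have h1 : atkinMat hM ∈ Gamma0 p := by
    have := mul_mem (BAD.mem_Gamma0_dvd.mpr h) (inv_mem hγ)
    simpa using this
  exact BAD.atkinMat_not_dvd hM (BAD.mem_Gamma0_dvd.mp h1)

/-- **The component containing `∞` comes from level `M` through the trace.** -/
theorem red_inf_eq (f : LRing p M P.ring) {γ : SL(2, ℤ)} (hγ : γ ∈ Gamma0 p) :
    red (P := P) (lexp M γ (f : ℍ → ℂ)) = rH P hM γ (trB f) := by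
  classical
  have hf : (f : ℍ → ℂ) ∈ LSub p M := f.2.2
  set x1 : CosetL p M := ((1 : Gamma M) : CosetL p M)
  set A := atkinMat hM
  set z : ℕ → SL(2, ℤ) := fun i => A * γ * ModularGroup.T ^ (M * i) with hz
  have hA : A ∈ Gamma M := BAD.atkinMat_mem hM
  have hTM : ∀ i : ℕ, ModularGroup.T ^ (M * i) ∈ Gamma M := fun i => (T_pow_mem_lam (p := p) i).2
  have hzM : ∀ i, γ * (z i)⁻¹ ∈ Gamma M := fun i => by
    rw [show γ * (z i)⁻¹ = (γ * ModularGroup.T ^ (M * i) * γ⁻¹)⁻¹ * A⁻¹ by
      simp only [hz]; group]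
    exact mul_mem (inv_mem ((Gamma_normal M).conj_mem _ (hTM i) γ)) (inv_mem hA)
  set φ : ZMod p → CosetL p M :=
    fun i => ((⟨γ * (z i.val)⁻¹, hzM _⟩ : Gamma M) : CosetL p M)
  have hz10 : ¬ (p : ℤ) ∣ (A * γ) 1 0 := atkinMat_mul_not_mem hM hγ
  have hz0 : ((( A * γ) 1 0 : ℤ) : ZMod p) ≠ 0 := fun h =>
    hz10 ((ZMod.intCast_zmod_eq_zero_iff_dvd _ _).mp h)
  have hM0 : (M : ZMod p) ≠ 0 := fun h =>
    hp.out.coprime_iff_not_dvd.mp hM.symm ((ZMod.natCast_eq_zero_iff M p).mp h)
  have hentry : ∀ (y : SL(2, ℤ)) (i : ℕ), ((y * (z i)⁻¹) 1 0 : ZMod p) =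
      (y 1 0 : ℤ) * ((A * γ) 1 1 : ℤ) -
        ((y 1 1 : ℤ) - (M : ZMod p) * i * (y 1 0 : ℤ)) * ((A * γ) 1 0 : ℤ) := by
    intro y i
    obtain ⟨e00, -, e10, -⟩ := inv_entries (A * γ)
    rw [show y * (z i)⁻¹ = y * (ModularGroup.T ^ (M * i))⁻¹ * (A * γ)⁻¹ by simp only [hz]; group,
      entry_mul, entry_mul, entry_mul, e00, e10, T_pow_inv_coe]
    simp
    ring
  have hinj : Function.Injective φ := by
    intro i j hij
    have h := QuotientGroup.eq.mp hij
    have h0 : ((γ * (z i.val)⁻¹)⁻¹ * (γ * (z j.val)⁻¹)) ∈ Gamma0 p :=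
      (Subgroup.mem_subgroupOf.mp h).1
    rw [show (γ * (z i.val)⁻¹)⁻¹ * (γ * (z j.val)⁻¹) = z i.val * (z j.val)⁻¹ by group,
      Gamma0_mem, hentry] at h0
    have e10 : ((z i.val) 1 0 : ℤ) = (A * γ) 1 0 := by
      rw [hz]; simp only []; rw [entry_mul, ES.T_pow_coe]; simp
    have e11 : ((z i.val) 1 1 : ℤ) = (A * γ) 1 0 * (M * i.val : ℕ) + (A * γ) 1 1 := by
      rw [hz]; simp only []; rw [entry_mul, ES.T_pow_coe]; simp
    rw [e10, e11] at h0
    push_cast at h0
    rw [ZMod.natCast_zmod_val, ZMod.natCast_zmod_val] at h0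
    have h2 : (M : ZMod p) * (j - i) * (((A * γ) 1 0 : ℤ) : ZMod p) ^ 2 = 0 := by
      linear_combination h0
    rcases mul_eq_zero.mp h2 with h3 | h3
    · exact (sub_eq_zero.mp ((mul_eq_zero.mp h3).resolve_left hM0)).symm
    · exact absurd ((pow_eq_zero_iff two_ne_zero).mp h3) hz0
  have himg : Finset.univ.erase x1 = Finset.univ.image φ := by
    ext x
    simp only [Finset.mem_erase, Finset.mem_univ, and_true, Finset.mem_image, true_and]
    constructor
    · intro hx
      set y := (cosetRep p M x)⁻¹ * γ with hy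
      have hy0 : ((y 1 0 : ℤ) : ZMod p) ≠ 0 := fun h => BAD.cosetRep_not_mem hx (by
        have h1 : y ∈ Gamma0 p := Gamma0_mem.mpr h
        have := mul_mem hγ (inv_mem h1)
        simpa [hy] using this)
      refine ⟨(((y 1 1 : ℤ) : ZMod p) * ((A * γ) 1 0 : ℤ) - (y 1 0 : ℤ) * ((A * γ) 1 1 : ℤ)) /
        ((M : ZMod p) * (y 1 0 : ℤ) * ((A * γ) 1 0 : ℤ)), ?_⟩
      set i := (((y 1 1 : ℤ) : ZMod p) * ((A * γ) 1 0 : ℤ) - (y 1 0 : ℤ) * ((A * γ) 1 1 : ℤ)) /
        ((M : ZMod p) * (y 1 0 : ℤ) * ((A * γ) 1 0 : ℤ)) with hi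
      conv_rhs => rw [← Quotient.out_eq x]
      refine QuotientGroup.eq.mpr (Subgroup.mem_subgroupOf.mpr ?_)
      show (γ * (z i.val)⁻¹)⁻¹ * cosetRep p M x ∈ lam p M
      rw [show (γ * (z i.val)⁻¹)⁻¹ * cosetRep p M x = (y * (z i.val)⁻¹)⁻¹ by rw [hy]; group]
      refine inv_mem (Subgroup.mem_inf.mpr ⟨?_, ?_⟩)
      · rw [Gamma0_mem, hentry, ZMod.natCast_zmod_val, hi]
        field_simp
        ring
      · rw [hy, mul_assoc]
        exact mul_mem (inv_mem (BAD.cosetRep_mem x)) (hzM _)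
    · rintro ⟨i, rfl⟩ h
      have h1 := (Subgroup.mem_subgroupOf.mp (QuotientGroup.eq.mp h.symm)).1
      simp only [inv_one, one_mul] at h1
      have h2 : z i.val ∈ Gamma0 p := by
        have := inv_mem (mul_mem (inv_mem hγ) h1)
        simpa using this
      have h3 : A * γ ∈ Gamma0 p := by
        have hT : ModularGroup.T ^ (M * i.val) ∈ Gamma0 p := (T_pow_mem_lam i.val).1
        have := mul_mem h2 (inv_mem hT)
        simpa [hz] using this
      exact hz10 (BAD.mem_Gamma0_dvd.mp h3)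
  set s0 := lexp (p * M) (A * γ) (f : ℍ → ℂ)
  have hterm : ∀ (i : ZMod p) (n : ℤ),
      (lexp (p * M) ((cosetRep p M (φ i))⁻¹ * γ) (f : ℍ → ℂ)).coeff (p * n) =
        s0.coeff (p * n) := by
    intro i n
    rw [← ES.lexp_act, BAD.act_rep_inv hf.2, ES.lexp_act,
      show (γ * (z i.val)⁻¹)⁻¹ * γ = A * γ * ModularGroup.T ^ (M * i.val) by simp only [hz]; group,
      ES.lexp_mul_T_pow hf.1, ES.coeff_twistSer]
    refine mul_right_eq_self₀.mpr (Or.inl ?_)
    rw [← zpow_natCast, ← zpow_mul,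
      show ((M * i.val : ℕ) : ℤ) * ((p : ℤ) * n) = ((p * M : ℕ) : ℤ) * (i.val * n) by
        push_cast; ring,
      zpow_mul, zpow_natCast, (ES.zetaC_isPrimitiveRoot (p * M)).pow_eq_one, one_zpow]
  rw [rH_apply, red_eq_red_iff (serIn_inf f.2 hγ) ((trB f).2.2 γ)]
  intro n
  have htr : (lexp M γ (trL p M (f : ℍ → ℂ))).coeff n =
      (lexp M γ (f : ℍ → ℂ)).coeff n + (p : ℂ) * s0.coeff (p * n) := by
    obtain ⟨t, ht, hts⟩ := BAD.exists_trL_descend hf γ
    rw [lexp_eq ht, ← BAD.expandL_coeff_mul p t n, ← hts, HahnSeries.coeff_sum,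
      ← Finset.add_sum_erase _ _ (Finset.mem_univ x1), himg,
      Finset.sum_image hinj.injOn]
    simp only [hterm, Finset.sum_const, Finset.card_univ, ZMod.card, nsmul_eq_mul]
    congr 1
    rw [← ES.lexp_act, BAD.act_rep_inv hf.2, Subgroup.coe_one, inv_one, ES.act_one,
      lexp_inf_level hf hγ, BAD.expandL_coeff_mul]
  rw [HahnSeries.coeff_sub]
  show P.abv ((lexp M γ (f : ℍ → ℂ)).coeff n - (lexp M γ (trL p M (f : ℍ → ℂ))).coeff n) < 1
  rw [htr, sub_add_cancel_left, AbsoluteValue.map_neg, map_mul]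
  exact (mul_le_of_le_one_right (P.abv.nonneg _) ((mem_LRing.mp f.2).2 _ _)).trans_lt P.lt_one

variable (P) in
/-- The component containing `∞`, read at `∞`. -/
def cI : LRing p M P.ring →+* LaurentSeries (ResField P) where
  toFun f := red (lexp M 1 (f : ℍ → ℂ))
  map_one' := by
    rw [show lexp M 1 ((1 : LRing p M P.ring) : ℍ → ℂ) = 1 from lexp_eq HasLExp.one]; exact red_one
  map_mul' f g := by
    rw [show lexp M 1 ((f * g : LRing p M P.ring) : ℍ → ℂ) =
      lexp M 1 (f : ℍ → ℂ) * lexp M 1 (g : ℍ → ℂ) from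
      lexp_eq ((hasLExp_inf f.2.2 (one_mem _)).mul (hasLExp_inf g.2.2 (one_mem _)))]
    exact red_mul (serIn_inf f.2 (one_mem _)) (serIn_inf g.2 (one_mem _))
  map_zero' := by
    rw [show lexp M 1 ((0 : LRing p M P.ring) : ℍ → ℂ) = 0 from lexp_eq HasLExp.zero]
    exact red_zero
  map_add' f g := by
    rw [show lexp M 1 ((f + g : LRing p M P.ring) : ℍ → ℂ) =
      lexp M 1 (f : ℍ → ℂ) + lexp M 1 (g : ℍ → ℂ) from
      lexp_eq ((hasLExp_inf f.2.2 (one_mem _)).add (hasLExp_inf g.2.2 (one_mem _)))]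
    exact red_add (serIn_inf f.2 (one_mem _)) (serIn_inf g.2 (one_mem _))

/-- The component at `∞` is the reduction of the trace. -/
theorem cI_eq (f : LRing p M P.ring) : cI P f = rH P hM 1 (trB f) :=
  red_inf_eq hM f (one_mem _)

/-- The component at `∞` of a function of level `M` is its reduced expansion. -/
theorem cI_raise (d : BRing M P.ring) : cI P (BAD.raiseL M d) = rH P hM 1 d := by
  rw [rH_apply]; rfl

/-- The reduction at a cusp of type `∞` is that of the trace. -/
theorem redT_inf (f : LRing p M P.ring) (c : CI M) :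
    (model p M hM).redT P (f : ℍ → ℂ) (c, false) = rH P hM (repI hM c) (trB f) := by
  show red _ = _
  rw [E_inf f.2.2]
  exact red_inf_eq hM f (repI_mem hM c)

/-- The reduction at a cusp of type `0` is that of the trace of the Atkin transform. -/
theorem redT_zero (f : LRing p M P.ring) (c : CI M) :
    (model p M hM).redT P (f : ℍ → ℂ) (c, true) =
      rH P hM (repI hM c) (trB (atkinL hM (zetaC_mem P _) f)) := by
  show red _ = _
  rw [E_zero' f.2.2]
  exact red_inf_eq hM (atkinL hM (zetaC_mem P _) f) (repI_mem hM c)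

end FermatAgent.PSEMI.LevelMp
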