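import Fermat.Agent.PSEMI.LevelMp.Unit
import Fermat.Agent.PSEMI.LevelMp.Compon

/-!
# Monic functions at every cusp

Two ratios of level `M` give functions with coprime pole orders, largest at `∞`; a power of
`qUnit` makes them small at the cusps of type `0`; Atkin and `Γ₀(p)` move `∞` to all cusps.
-/

set_option autoImplicit false

open UpperHalfPlane CongruenceSubgroup
open scoped MatrixGroups

noncomputable section

namespace FermatAgent.PSEMI.LevelMp

open FermatAgent.ES (CPlace AuxLevel BSub BRing SerIn HasLExp lexp lexp_eq hasLExp_lexp act zetaC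
  LeadUnit vmul Adm ratio pairIdx leadIdx)
open FermatAgent.BAD (lam LSub LRing mem_LRing expandL atkin atkinL atkinMat)
open FermatAgent.Curve (SGE)

variable {p M : ℕ} [hp : Fact p.Prime] [NeZero M] {P : CPlace p}

/-! ### Level `M` functions with largest pole at `∞` -/

variable (P) in
/-- Pole of exact order `i` at `∞` with unit coefficient, smaller poles at the other cusps. -/
def PeakAt (h : ℍ → ℂ) (i : ℕ) : Prop :=
  h ∈ BRing M P.ring ∧ LeadUnit P.ring (lexp M 1 h) (-(i : ℤ)) ∧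
    (∀ γ, SGE (-(i : ℤ)) (lexp M γ h)) ∧
    ∀ γ, γ ∉ cuspSub M → SGE (-(i : ℤ) + 1) (lexp M γ h)

omit hp in
/-- Peaks multiply. -/
theorem PeakAt.mul {g h : ℍ → ℂ} {i j : ℕ} (hg : PeakAt (M := M) P g i)
    (hh : PeakAt (M := M) P h j) :
    PeakAt (M := M) P (g * h) (i + j) := by
  have e : ∀ γ, lexp M γ (g * h) = lexp M γ g * lexp M γ h := fun γ => lexp_eq (by
    rw [ES.act_mulFun]; exact (hasLExp_lexp hg.1.1 γ).mul (hasLExp_lexp hh.1.1 γ))
  refine ⟨mul_mem hg.1 hh.1, ?_, fun γ => ?_, fun γ hγ => ?_⟩ <;> rw [e]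
  · convert hg.2.1.mul hh.2.1 using 1; push_cast; ring
  · convert (hg.2.2.1 γ).mul (hh.2.2.1 γ) using 1; push_cast; ring
  · convert (hg.2.2.2 γ hγ).mul (hh.2.2.1 γ) using 1; push_cast; ring

omit hp in
/-- Powers of peaks are peaks. -/
theorem PeakAt.pow {g : ℍ → ℂ} {i : ℕ} (hg : PeakAt (M := M) P g i) (n : ℕ) :
    PeakAt (M := M) P (g ^ (n + 1)) ((n + 1) * i) := by
  induction n with
  | zero => simpa using hg
  | succ n ih =>
    rw [pow_succ, show (n + 1 + 1) * i = (n + 1) * i + i by ring]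
    exact ih.mul hg

omit [NeZero M] in
theorem leadIdx_one (hM2 : 2 ≤ M) {v : Fin 2 → ZMod M} (h : v 0 = 1 ∨ v 0 = -1) :
    leadIdx v = 1 := by
  have h1 : ((1 : ℕ) : ZMod M).valMinAbs = (1 : ℕ) :=
    ZMod.valMinAbs_natCast_of_le_half (by omega)
  rw [Nat.cast_one] at h1
  rcases h with h | h <;> simp [leadIdx, h, ZMod.natAbs_valMinAbs_neg, h1]

omit [NeZero M] in
theorem leadIdx_half {v : Fin 2 → ZMod M} (h : v 0 = ((M / 2 : ℕ) : ZMod M) ∨
    v 0 = -((M / 2 : ℕ) : ZMod M)) : leadIdx v = M / 2 := by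
  have h1 : ((M / 2 : ℕ) : ZMod M).valMinAbs = (M / 2 : ℕ) :=
    ZMod.valMinAbs_natCast_of_le_half le_rfl
  rcases h with h | h
  · rw [leadIdx, h, h1, Int.natAbs_natCast]
  · rw [leadIdx, h, ZMod.natAbs_valMinAbs_neg, h1, Int.natAbs_natCast]

omit [NeZero M] in
theorem vmul_apply_zero (v : Fin 2 → ZMod M) (γ : SL(2, ℤ)) :
    vmul M v γ 0 = v 0 * (γ 0 0 : ℤ) + v 1 * (γ 1 0 : ℤ) := by
  simp [vmul, ES.modMat, Matrix.vecMul, dotProduct, Fin.sum_univ_two]

theorem leadIdx_le_half (v : Fin 2 → ZMod M) : leadIdx v ≤ M / 2 := by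
  have := ES.two_mul_leadIdx_le v; omega

section Peak

variable (M) (hM2 : 2 ≤ M)
include hM2

/-- Denominator `((k,0),(k,1))` with `k = ⌊M/2⌋`, numerator `((0,1),(1,0))`. -/
def rBig : ℍ → ℂ :=
  ratio M ![0, 1] ![1, 0] ![((M / 2 : ℕ) : ZMod M), 0] ![((M / 2 : ℕ) : ZMod M), 1]

/-- `ratio ((1,0),(1,1)) ((0,1),(1,0))`. -/
def rSmall : ℍ → ℂ := ratio M ![1, 0] ![1, 1] ![0, 1] ![1, 0]

omit [NeZero M] in
theorem adm_std : Adm M (![0, 1] : Fin 2 → ZMod M) ![1, 0] ∧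
    Adm M (![1, 0] : Fin 2 → ZMod M) ![1, 1] ∧
    Adm M (![((M / 2 : ℕ) : ZMod M), 0] : Fin 2 → ZMod M) ![((M / 2 : ℕ) : ZMod M), 1] := by
  have : Fact (1 < M) := ⟨hM2⟩
  have hk : ((M / 2 : ℕ) : ZMod M) ≠ 0 := by
    intro h
    have := Nat.le_of_dvd (by omega) ((ZMod.natCast_eq_zero_iff _ _).mp h)
    omega
  refine ⟨⟨?_, ?_, ?_, ?_⟩, ⟨?_, ?_, ?_, ?_⟩, ⟨?_, ?_, ?_, ?_⟩⟩ <;> intro h <;>
    have h0 := congrFun h 0 <;> have h1 := congrFun h 1 <;> simp_all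

omit hp [NeZero M] in
/-- Off the cusp `∞` with `c ≡ 0` the first entry has index at least two. -/
private theorem two_le_leadIdx {γ : SL(2, ℤ)} (hγ : γ ∉ cuspSub M)
    (h10 : ((γ 1 0 : ℤ) : ZMod M) = 0) :
    2 ≤ leadIdx (vmul M (![1, 0] : Fin 2 → ZMod M) γ) := by
  have hdet := congrArg (Int.cast : ℤ → ZMod M)
    ((Matrix.det_fin_two (γ : Matrix (Fin 2) (Fin 2) ℤ)).symm.trans γ.2)
  push_cast at hdet
  rw [h10, mul_zero, sub_zero] at hdet
  set v := vmul M (![1, 0] : Fin 2 → ZMod M) γ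
  have hv : v 0 = ((γ 0 0 : ℤ) : ZMod M) := by simp [v, vmul_apply_zero]
  by_contra hlt
  have hc := ES.natCast_leadIdx v
  have h01 : leadIdx v = 0 ∨ leadIdx v = 1 := by omega
  have : Fact (1 < M) := ⟨hM2⟩
  rcases h01 with h | h
  · rw [ES.leadIdx_eq_zero, hv] at h
    rw [h, zero_mul] at hdet
    exact zero_ne_one hdet
  · rw [h, Nat.cast_one, hv] at hc
    refine hγ ⟨h10, ?_⟩
    rcases hc with hc | hc
    · exact Or.inl (by rw [← hc, one_mul] at hdet; exact hdet)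
    · rw [eq_comm, neg_eq_iff_eq_neg] at hc
      exact Or.inr (by rw [hc] at hdet; rw [← hdet]; ring)

omit hp in
/-- The product with pole `J ⌊M/2⌋ - 1` at `∞`. -/
theorem exists_peak (hA : ES.GoodRoot M P.ring (zetaC M)) {J : ℕ} (hJ : M / 2 + 2 ≤ J) :
    ∃ h, PeakAt (M := M) P h (J * (M / 2) - 1) := by
  obtain ⟨a1, a2, a3⟩ := adm_std M hM2
  set k := M / 2 with hk
  have hk1 : 1 ≤ k := by omega
  have hJk : 1 ≤ J * k := Nat.mul_pos (by omega) hk1
  refine ⟨rBig M ^ J * rSmall M, ?_⟩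
  have hB : rBig M ∈ BRing M P.ring := ES.ratio_mem_BRing hA a1.left a1.right a3
  have hS : rSmall M ∈ BRing M P.ring := ES.ratio_mem_BRing hA a2.left a2.right a1
  set d1 : SL(2, ℤ) → ℤ := fun γ => pairIdx (vmul M ![0, 1] γ) (vmul M ![1, 0] γ) -
    pairIdx (vmul M ![(k : ZMod M), 0] γ) (vmul M ![(k : ZMod M), 1] γ)
  set d2 : SL(2, ℤ) → ℤ := fun γ => pairIdx (vmul M ![1, 0] γ) (vmul M ![1, 1] γ) -
    pairIdx (vmul M ![0, 1] γ) (vmul M ![1, 0] γ)
  have key : ∀ γ, LeadUnit P.ring (lexp M γ (rBig M ^ J * rSmall M)) (J * d1 γ + d2 γ) := by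
    intro γ
    rw [lexp_eq (γ := γ) (s := lexp M γ (rBig M) ^ J * lexp M γ (rSmall M)) (by
      rw [ES.act_mulFun, show act γ (rBig M ^ J) = act γ (rBig M) ^ J from
        map_pow (ES.actHom _) _ J]
      exact ((hasLExp_lexp hB.1 γ).pow J).mul (hasLExp_lexp hS.1 γ))]
    exact ((ES.leadUnit_lexp_ratio hA a1 a3 γ).pow J).mul (ES.leadUnit_lexp_ratio hA a2 a1 γ)
  have hcast : ((J * k - 1 : ℕ) : ℤ) = (J : ℤ) * k - 1 := by push_cast [Nat.cast_sub hJk]; ring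
  have hb : ∀ γ, -(k : ℤ) ≤ d1 γ ∧ -(k : ℤ) ≤ d2 γ := by
    intro γ
    have h1 := leadIdx_le_half (vmul M (![(k : ZMod M), 0]) γ)
    have h2 := leadIdx_le_half (vmul M (![0, 1] : Fin 2 → ZMod M) γ)
    simp only [d1, d2, pairIdx]
    omega
  have hinfty : ∀ γ, γ ∈ cuspSub M → d1 γ = -(k : ℤ) ∧ d2 γ = 1 := by
    intro γ hγ
    have hdet := congrArg (Int.cast : ℤ → ZMod M)
      ((Matrix.det_fin_two (γ : Matrix (Fin 2) (Fin 2) ℤ)).symm.trans γ.2)
    push_cast at hdet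
    rw [hγ.1, mul_zero, sub_zero] at hdet
    have h00 : ((γ 0 0 : ℤ) : ZMod M) = 1 ∨ ((γ 0 0 : ℤ) : ZMod M) = -1 := by
      rcases hγ.2 with e | e <;> rw [e] at hdet
      · exact Or.inl (by rwa [mul_one] at hdet)
      · exact Or.inr (by rw [← hdet]; ring)
    have e1 : leadIdx (vmul M (![0, 1] : Fin 2 → ZMod M) γ) = 0 := by
      rw [ES.leadIdx_eq_zero, vmul_apply_zero]; simp [hγ.1]
    have e2 : leadIdx (vmul M (![1, 0] : Fin 2 → ZMod M) γ) = 1 :=
      leadIdx_one hM2 (by rw [vmul_apply_zero]; simpa using h00)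
    have e3 : leadIdx (vmul M (![1, 1] : Fin 2 → ZMod M) γ) = 1 :=
      leadIdx_one hM2 (by rw [vmul_apply_zero]; simpa [hγ.1] using h00)
    have e4 : leadIdx (vmul M (![(k : ZMod M), 0]) γ) = k := leadIdx_half (by
      rw [vmul_apply_zero]
      rcases h00 with e | e <;> simp [e, hk])
    have e5 : leadIdx (vmul M (![(k : ZMod M), 1]) γ) = k := leadIdx_half (by
      rw [vmul_apply_zero]
      rcases h00 with e | e <;> simp [e, hk, hγ.1])
    simp only [d1, d2, pairIdx, e1, e2, e3, e4, e5]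
    omega
  have hother : ∀ γ, γ ∉ cuspSub M → -((J * k : ℕ) : ℤ) + 2 ≤ (J : ℤ) * d1 γ + d2 γ := by
    intro γ hγ
    obtain ⟨g1, g2⟩ := hb γ
    have hJ' : (k : ℤ) + 2 ≤ J := by exact_mod_cast hJ
    by_cases h10 : ((γ 1 0 : ℤ) : ZMod M) = 0
    · have e1 : leadIdx (vmul M (![0, 1] : Fin 2 → ZMod M) γ) = 0 := by
        rw [ES.leadIdx_eq_zero, vmul_apply_zero]; simp [h10]
      have e2 := two_le_leadIdx M hM2 hγ h10
      have e3 : leadIdx (vmul M (![1, 1] : Fin 2 → ZMod M) γ) =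
          leadIdx (vmul M (![1, 0] : Fin 2 → ZMod M) γ) := by
        simp [leadIdx, vmul_apply_zero, h10]
      have hd2 : 2 ≤ d2 γ := by
        simp only [d2, pairIdx, e1, e3]
        omega
      push_cast
      nlinarith
    · by_cases h00 : ((γ 0 0 : ℤ) : ZMod M) = 0
      · have hd1 : 0 ≤ d1 γ := by
          have : leadIdx (vmul M (![(k : ZMod M), 0]) γ) = 0 := by
            rw [ES.leadIdx_eq_zero, vmul_apply_zero]; simp [h00]
          simp only [d1, pairIdx, this]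
          omega
        push_cast
        nlinarith
      · have e1 : 1 ≤ leadIdx (vmul M (![0, 1] : Fin 2 → ZMod M) γ) := by
          rw [Nat.one_le_iff_ne_zero, ne_eq, ES.leadIdx_eq_zero, vmul_apply_zero]; simpa using h10
        have e2 : 1 ≤ leadIdx (vmul M (![1, 0] : Fin 2 → ZMod M) γ) := by
          rw [Nat.one_le_iff_ne_zero, ne_eq, ES.leadIdx_eq_zero, vmul_apply_zero]; simpa using h00
        have e4 := leadIdx_le_half (vmul M (![(k : ZMod M), 0]) γ)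
        have hd1 : 1 - (k : ℤ) ≤ d1 γ := by
          simp only [d1, pairIdx]
          omega
        push_cast
        nlinarith
  refine ⟨mul_mem (pow_mem hB J) hS, ?_, fun γ n hn => (key γ).coeff_of_lt ?_,
    fun γ hγ n hn => (key γ).coeff_of_lt ?_⟩
  · convert key 1 using 1
    obtain ⟨h1, h2⟩ := hinfty 1 (one_mem _)
    rw [h1, h2, hcast]
    ring
  · by_cases hγ : γ ∈ cuspSub M
    · obtain ⟨h1, h2⟩ := hinfty γ hγ
      rw [h1, h2]
      linarith
    · have := hother γ hγ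
      push_cast at this
      linarith
  · have := hother γ hγ
    push_cast at this
    linarith

end Peak

/-! ### Monic functions -/

variable (hM : M.Coprime p)
include hM

theorem exists_atkin_act {R : SL(2, ℤ)} (hR : R ∈ Gamma0 p) :
    ∃ R' : Gamma0 p, ∀ g : ℍ → ℂ, atkin hM (act R g) = act (R' : SL(2, ℤ)) (atkin hM g) := by
  set A := atkinMat hM
  have h01 : (p : ℤ) ∣ (A⁻¹ * R * A) 0 1 := by
    obtain ⟨-, hA⟩ := BAD.atkinMat_dvd hM
    rw [Gamma0_mem] at hR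
    rw [← ZMod.intCast_zmod_eq_zero_iff_dvd] at hA ⊢
    obtain ⟨e00, e01, -, -⟩ := inv_entries A
    rw [entry_mul, entry_mul, entry_mul, e00, e01]
    simp [hA, hR, A]
  obtain ⟨R', hR'⟩ := exists_dilHom_eq h01
  refine ⟨R', fun g => ?_⟩
  rw [act_atkin, hR', BAD.atkin_apply, ← ES.act_mul]
  congr 2
  simp only [A]
  group

/-- The function with the largest pole at `(1, ∞)`. -/
theorem exists_top_one (hM1 : 1 < M) {m : ℕ} (haux : AuxLevel M m) :
    ∃ o0 : ℕ, ∀ o ≥ o0, ∃ f, f ∈ LRing p M P.ring ∧ LeadUnit P.ring (lexp M 1 f) (-(o : ℤ)) ∧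
      (∀ γ ∈ Gamma0 p, γ ∉ cuspSub M → SGE (-(o : ℤ) + 1) (lexp M γ f)) ∧
      ∀ γ ∈ Gamma0 p, SGE (-(o : ℤ) + 1) (lexp M γ (atkin hM f)) := by
  set k := M / 2 with hk
  have hk1 : 1 ≤ k := by omega
  set J := k + 2
  have hA := P.goodRoot hM
  obtain ⟨ha, hpa⟩ := exists_peak M (by omega) hA (J := J) le_rfl
  obtain ⟨hb, hpb⟩ := exists_peak M (by omega) hA (J := J + 1) (Nat.le_succ _)
  rw [← hk] at hpa hpb
  set a := J * k - 1
  set b := (J + 1) * k - 1
  set E := (p - 1) * wOrd haux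
  have hE : 0 < E := Nat.mul_pos (Nat.sub_pos_of_lt hp.out.one_lt) (wOrd_pos haux)
  have : NeZero E := ⟨hE.ne'⟩
  have hJk : 1 ≤ J * k := Nat.mul_pos (by omega) hk1
  have hJk' : 1 ≤ (J + 1) * k := Nat.mul_pos (by omega) hk1
  have hab : (b : ℤ) - a = k := by
    simp only [a, b]; push_cast [Nat.cast_sub hJk, Nat.cast_sub hJk']; ring
  have haJ : (J : ℤ) * ((b : ℤ) - a) - a = 1 := by
    rw [hab]; simp only [a]; push_cast [Nat.cast_sub hJk]; ring
  refine ⟨E * (p * (E * a + E * b) + 2) + E * (a + b), fun o ho => ?_⟩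
  obtain ⟨x, y, hx, hy, hxy⟩ : ∃ x y : ℕ, x + 1 ≤ E ∧ y ≤ E ∧
      ((o : ZMod E) = (((x + 1) * a + y * b : ℕ) : ZMod E)) := by
    set u : ZMod E := (o : ZMod E) * (-((J : ℤ) + 1) : ℤ) - 1
    set v : ZMod E := (o : ZMod E) * ((J : ℤ) : ℤ)
    refine ⟨u.val, v.val, ZMod.val_lt u, (ZMod.val_lt v).le, ?_⟩
    have e := congrArg (Int.cast : ℤ → ZMod E) haJ
    push_cast at e
    simp only [Nat.cast_add, Nat.cast_mul, Nat.cast_one, ZMod.natCast_zmod_val, u, v]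
    push_cast
    linear_combination -(o : ZMod E) * e
  set i := (x + 1) * a + y * b with hi
  have hi_le : i ≤ E * a + E * b :=
    add_le_add (Nat.mul_le_mul_right _ hx) (Nat.mul_le_mul_right _ hy)
  obtain ⟨h, hh⟩ : ∃ h, PeakAt (M := M) P h i := by
    rcases Nat.eq_zero_or_pos y with hy0 | hy0
    · exact ⟨_, by rw [hi, hy0, zero_mul, add_zero]; exact hpa.pow x⟩
    · obtain ⟨y', rfl⟩ : ∃ y', y = y' + 1 := ⟨y - 1, by omega⟩
      exact ⟨_, (hpa.pow x).mul (hpb.pow y')⟩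
  have hio : i ≤ o := by
    have : E * a + E * b ≤ o := by
      rw [← mul_add]; omega
    omega
  obtain ⟨t, ht⟩ : ∃ t, o = t * E + i := by
    have hd : ((o - i : ℕ) : ZMod E) = 0 := by rw [Nat.cast_sub hio, hxy, sub_self]
    obtain ⟨t, ht⟩ := (ZMod.natCast_eq_zero_iff _ _).mp hd
    exact ⟨t, by rw [mul_comm]; omega⟩
  have htbig : p * i + 1 ≤ t := by
    by_contra hlt
    push Not at hlt
    have h1 : t * E ≤ p * (E * a + E * b) * E :=
      Nat.mul_le_mul_right _ ((Nat.lt_succ_iff.mp hlt).trans (Nat.mul_le_mul_left _ hi_le))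
    have h2 : E * (p * (E * a + E * b) + 2) = p * (E * a + E * b) * E + 2 * E := by ring
    have h3 : E * (a + b) = E * a + E * b := by ring
    omega
  have hQ := qUnit_mem_LRing (P := P) haux hM
  have hhL : h ∈ BSub (p * M) := (BAD.mem_LRing_of_BRing (q := p) hh.1).2.1
  set f := qUnit p haux ^ t * h
  have hf : f ∈ LRing p M P.ring := mul_mem (pow_mem hQ t) (BAD.mem_LRing_of_BRing hh.1)
  have einf : ∀ γ ∈ Gamma0 p, lexp M γ f = lexp M γ (qUnit p haux) ^ t * lexp M γ h := fun γ hγ =>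
    lexp_eq (by
      rw [ES.act_mulFun, show act γ (qUnit p haux ^ t) = act γ (qUnit p haux) ^ t from
        map_pow (ES.actHom _) _ t]
      exact ((hasLExp_inf hQ.2 hγ).pow t).mul (hasLExp_lexp hh.1.1 γ))
  refine ⟨f, hf, ?_, fun γ hγ hγ' => ?_, fun γ hγ => ?_⟩
  · rw [einf 1 (one_mem _)]
    convert ((leadUnit_qUnit_inf haux hM (P := P) (one_mem _)).pow t).mul hh.2.1 using 1
    rw [ht]; simp only [E]; push_cast; ring
  · rw [einf γ hγ]
    have := SGE.mul (fun n hn => ((leadUnit_qUnit_inf haux hM (P := P) hγ).pow t).coeff_of_lt hn)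
      (hh.2.2.2 γ hγ')
    refine this.mono (le_of_eq ?_)
    rw [ht]; simp only [E]; push_cast; ring
  · rw [show lexp M γ (atkin hM f) = _ from lexp_repO hM hf.2 ⟨γ, hγ⟩]
    set δ := atkinMat hM * dilHom p ⟨γ, hγ⟩
    have hδ : δ ∉ Gamma0 p := BAD.atkin_type_inf hM (dvd_dilHom _)
    obtain ⟨-, hQ0⟩ := qUnit_zero haux hM (P := P) hδ
    rw [lexp_eq (γ := δ) (s := lexp (p * M) δ (qUnit p haux) ^ t * expandL p (lexp M δ h)) (by
      rw [ES.act_mulFun, show act δ (qUnit p haux ^ t) = act δ (qUnit p haux) ^ t from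
        map_pow (ES.actHom _) _ t]
      exact ((hasLExp_lexp hQ.2.1 δ).pow t).mul (BAD.hasLExp_raise p (hasLExp_lexp hh.1.1 δ)))]
    have hpow : ∀ n : ℕ, SGE ((n * E : ℕ) : ℤ) (lexp (p * M) δ (qUnit p haux) ^ n) := by
      intro n
      induction n with
      | zero =>
        intro j hj
        simp only [Nat.zero_mul, Nat.cast_zero] at hj
        rw [pow_zero, HahnSeries.coeff_one, if_neg hj.ne]
      | succ n ih =>
        rw [pow_succ]
        refine (ih.mul hQ0).mono (le_of_eq ?_)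
        simp only [E]; push_cast; ring
    refine ((hpow t).mul (fun n hn => expandL_coeff_of_lt (p := p) (k := -(i : ℤ))
      (fun l hl => hh.2.2.1 δ l hl) hn)).mono ?_
    have h1 : (p : ℤ) * i + 1 ≤ t := by exact_mod_cast htbig
    have h2 : (t : ℤ) ≤ (t : ℤ) * E := le_mul_of_one_le_right (by positivity) (by exact_mod_cast hE)
    have h3 : (0 : ℤ) ≤ (t : ℤ) * E := by positivity
    rw [ht]
    push_cast
    linarith

/-- The axiom `top` for the model. -/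
theorem model_top (hM1 : 1 < M) {m : ℕ} (haux : AuxLevel M m) :
    ∃ o0 : ℕ, ∀ x, ∀ o : ℕ, o0 ≤ o → ∃ f ∈ (model p M hM).Fun, (model p M hM).Integral P f ∧
      SGE (-(o : ℤ)) ((model p M hM).E x f) ∧
      P.abv (((model p M hM).E x f).coeff (-(o : ℤ))) = 1 ∧
      ∀ x', x' ≠ x → SGE (-(o : ℤ) + 1) ((model p M hM).E x' f) := by
  obtain ⟨o0, H⟩ := exists_top_one hM hM1 haux (P := P)
  refine ⟨o0, fun x o ho => ?_⟩
  obtain ⟨f, hf, hlead, hinf, hzero⟩ := H o ho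
  rcases x with ⟨c, b⟩
  set R := repI hM c
  have hR : R⁻¹ ∈ Gamma0 p := inv_mem (repI_mem hM c)
  have hfc : act R⁻¹ f ∈ LRing p M P.ring := by
    refine ⟨ES.act_mem_BRing hf.1 _, ES.act_mem_BSub hf.2.1 _, fun γ hγ => ?_⟩
    rw [← ES.act_mul, show R⁻¹ * γ = (R⁻¹ * γ * (R⁻¹)⁻¹) * R⁻¹ by group, ES.act_mul,
      hf.2.2 _ (BAD.lam_normalised hR hγ)]
  obtain ⟨R', hR'⟩ := exists_atkin_act hM hR
  have e1 : lexp M (repI hM c) (act R⁻¹ f) = lexp M 1 f := by
    rw [ES.lexp_act]; simp [R]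
  have e2 : ∀ c', c' ≠ c → SGE (-(o : ℤ) + 1) (lexp M (repI hM c') (act R⁻¹ f)) := fun c' hc' => by
    rw [ES.lexp_act]
    refine hinf _ (mul_mem hR (repI_mem hM c')) fun h => hc' ?_
    rw [← mk_repI hM c', ← mk_repI hM c]
    exact (QuotientGroup.eq.mpr h).symm
  have e3 : ∀ γ ∈ Gamma0 p, SGE (-(o : ℤ) + 1) (lexp M γ (atkin hM (act R⁻¹ f))) := fun γ hγ => by
    rw [hR', ES.lexp_act]
    exact hzero _ (mul_mem R'.2 hγ)
  have hlead' : SGE (-(o : ℤ)) (lexp M 1 f) ∧ P.abv ((lexp M 1 f).coeff (-(o : ℤ))) = 1 :=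
    ⟨fun n hn => hlead.coeff_of_lt hn, P.abv_eq_one_of_unitIn hlead.unitIn_coeff⟩
  cases b
  · refine ⟨_, (mem_Fun_iff hM).mpr hfc.2, (integral_iff hM hfc.2).mpr hfc, ?_, ?_, ?_⟩
    · rw [E_inf hfc.2, e1]; exact hlead'.1
    · rw [E_inf hfc.2, e1]; exact hlead'.2
    · rintro ⟨c', b'⟩ hx'
      cases b'
      · rw [E_inf hfc.2]; exact e2 c' fun h => hx' (by rw [h])
      · rw [E_zero' hfc.2]; exact e3 _ (repI_mem hM c')
  · obtain ⟨g, hg⟩ := (BAD.atkinEquiv hM (zetaC_mem P (p * M))).surjective ⟨_, hfc⟩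
    have hge : atkin hM (g : ℍ → ℂ) = act R⁻¹ f := congrArg Subtype.val hg
    obtain ⟨δ, hδ, hsq⟩ := BAD.exists_atkin_sq (q := p) hM
    refine ⟨_, (mem_Fun_iff hM).mpr g.2.2, (integral_iff hM g.2.2).mpr g.2, ?_, ?_, ?_⟩
    · rw [E_zero' g.2.2, hge, e1]; exact hlead'.1
    · rw [E_zero' g.2.2, hge, e1]; exact hlead'.2
    · rintro ⟨c', b'⟩ hx'
      cases b'
      · rw [E_inf g.2.2]
        have := e3 (δ⁻¹ * repI hM c') (mul_mem (inv_mem hδ) (repI_mem hM c'))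
        rwa [← hge, hsq, ES.lexp_act, mul_inv_cancel_left] at this
      · rw [E_zero' g.2.2, hge]; exact e2 c' fun h => hx' (by rw [h])

end FermatAgent.PSEMI.LevelMp
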