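import Fermat.Agent.PSEMI.LevelMp.Cusps
import Fermat.Agent.PSEMI.Valence

/-!
# Zeros are at most poles at level `±(Γ₀(p) ∩ Γ(M))`
-/

set_option autoImplicit false

open UpperHalfPlane CongruenceSubgroup
open scoped MatrixGroups
open ModularGroup (S T)

noncomputable section

namespace FermatAgent.PSEMI.LevelMp

variable {p M : ℕ} [Fact p.Prime] [NeZero M]

omit [NeZero M] [Fact (Nat.Prime p)] in
theorem mem_Gamma0_of_pm {g : SL(2, ℤ)} (h : g ∈ pmLam p M) : g ∈ Gamma0 p := by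
  rcases h with h | h
  · exact h.1
  · simpa using neg_mem_Gamma0 h.1

omit [Fact (Nat.Prime p)] [NeZero M] in
theorem noElliptic_pmLam (hM1 : 1 < M) : NoElliptic (pmLam p M) := by
  have : Fact (1 < M) := ⟨hM1⟩
  have key : ∀ (g u : SL(2, ℤ)), u 1 0 = 1 → g * u * g⁻¹ ∉ pmLam p M := by
    intro g u hu h
    rcases h with h | h
    · have := (Gamma_normal M).conj_mem _ h.2 g⁻¹
      rw [show g⁻¹ * (g * u * g⁻¹) * g⁻¹⁻¹ = u by group, Gamma_mem] at this
      simp [hu] at this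
    · have := (Gamma_normal M).conj_mem _ h.2 g⁻¹
      rw [show g⁻¹ * -(g * u * g⁻¹) * g⁻¹⁻¹ = -(g⁻¹ * (g * u * g⁻¹) * g⁻¹⁻¹) by
          rw [mul_neg, neg_mul],
        show g⁻¹ * (g * u * g⁻¹) * g⁻¹⁻¹ = u by group, Gamma_mem] at this
      simp [hu] at this
  refine fun g => ⟨key g _ ?_, key g _ ?_, key g _ ?_⟩ <;>
    simp [pow_two, ModularGroup.coe_S, ModularGroup.coe_T, Matrix.mul_apply, Fin.sum_univ_two]

variable (hM : M.Coprime p)

theorem model_decomp (g : SL(2, ℤ)) : ∃ x, ∃ k : ℕ,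
    g * ((model p M hM).rep x * T ^ k)⁻¹ ∈ (model p M hM).Γ := by
  by_cases hg : g ∈ Gamma0 p
  · obtain ⟨c, k, h⟩ := exists_decomp_inf hM hg
    exact ⟨(c, false), k, h⟩
  · obtain ⟨c, k, h⟩ := exists_decomp_zero hM hg
    exact ⟨(c, true), k, h⟩

theorem model_decomp_unique (x x' : (model p M hM).C) (k k' : ℤ)
    (h : (model p M hM).rep x * T ^ k * ((model p M hM).rep x' * T ^ k')⁻¹ ∈ (model p M hM).Γ) :
    x = x' ∧ ((model p M hM).wd x : ℤ) ∣ k - k' := by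
  have hT : ∀ l : ℤ, (T : SL(2, ℤ)) ^ l ∈ Gamma0 p := fun l => by
    rw [Gamma0_mem, ModularGroup.coe_T_zpow]; simp
  rcases x with ⟨c, b⟩
  rcases x' with ⟨c', b'⟩
  have h0 := mem_Gamma0_of_pm h
  cases b <;> cases b'
  · obtain ⟨rfl, hd⟩ := decomp_inf_inj hM h; exact ⟨rfl, hd⟩
  · refine absurd ?_ (repO_not_mem hM c')
    have := mul_mem (inv_mem h0) (mul_mem (repI_mem hM c) (hT k))
    change (_ * (repO hM c' * T ^ k')⁻¹)⁻¹ * _ ∈ Gamma0 p at this
    rw [show repO hM c' = (repI hM c * T ^ k * (repO hM c' * T ^ k')⁻¹)⁻¹ * (repI hM c * T ^ k) *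
      (T ^ k')⁻¹ by group]
    exact mul_mem this (inv_mem (hT k'))
  · refine absurd ?_ (repO_not_mem hM c)
    rw [show repO hM c = (repO hM c * T ^ k * (repI hM c' * T ^ k')⁻¹) * (repI hM c' * T ^ k') *
      (T ^ k)⁻¹ by group]
    exact mul_mem (mul_mem h0 (mul_mem (repI_mem hM c') (hT k'))) (inv_mem (hT k))
  · obtain ⟨rfl, hd⟩ := decomp_zero_inj hM h; exact ⟨rfl, hd⟩

/-- The axiom `val` for the model. -/
theorem model_val (hM1 : 1 < M) : ∀ y ∈ (model p M hM).Fun, y ≠ 0 → ∀ Z : Finset ℍ,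
    (model p M hM).Apart Z → ((∑ τ ∈ Z, (ES.vanishOrd y τ).toNat : ℕ) : ℤ) +
      ∑ x, ((model p M hM).E x y).order ≤ 0 :=
  (model p M hM).val_of_decomp (noElliptic_pmLam hM1) (model_decomp hM) (model_decomp_unique hM)

end FermatAgent.PSEMI.LevelMp
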