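import Fermat.Agent.PSEMI.LevelMp.Roots
import Fermat.Agent.PSEMI.LevelMp.Top
import Fermat.Agent.PSEMI.LevelMp.Val

/-!
# The model at level `±(Γ₀(p) ∩ Γ(M))` satisfies the axioms
-/

set_option autoImplicit false

open UpperHalfPlane CongruenceSubgroup
open scoped MatrixGroups

noncomputable section

namespace FermatAgent.PSEMI.LevelMp

open FermatAgent.ES (CPlace AuxLevel)

variable {p M : ℕ} [Fact p.Prime] [NeZero M] {P : CPlace p}

theorem one_lt_of_aux {m : ℕ} (haux : AuxLevel M m) : 1 < M :=
  lt_of_lt_of_le (by rcases haux.small with rfl | rfl <;> norm_num)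
    (Nat.le_of_dvd (NeZero.pos M) haux.dvd)

/-- The axioms for the model, with the basic cusps over `∞`. -/
theorem exists_good (hM : M.Coprime p) {m : ℕ} (haux : AuxLevel M m) (K : Coeffs P) :
    ∃ G : (model p M hM).Good K,
      ∀ c ∈ G.basic, c.1 = (((1 : SL(2, ℤ)) : CI M)) := by
  classical
  obtain ⟨o0, htop⟩ := model_top hM (one_lt_of_aux haux) haux (P := P)
  have hmem : ∀ (x : (model p M hM).C) (y : (model p M hM).C) (b : Bool),
      (bif b then y else x) ∈ ({x, y} : Finset (model p M hM).C) := fun x y b => by cases b <;> simp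
  set c1 : CI M := ((1 : SL(2, ℤ)) : CI M)
  exact ⟨{
    nonempty := ⟨(c1, false)⟩
    bound := model_bound hM haux K
    val := model_val hM (one_lt_of_aux haux)
    o0 := o0
    top := htop
    rootClosed := rootClosed' hM haux K
    basic := {(c1, false), (c1, true)}
    basic_spec := fun f hf hfi h => basic_spec' hM haux K f hf hfi c1 fun b => h (c1, b) (by
      have := hmem (c1, false) (c1, true) b
      cases b <;> exact this) }, fun c hc => by
    rcases (@Finset.mem_insert _ (_) _ _ _).mp hc with rfl | hc
    · rfl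
    · rw [Finset.mem_singleton.mp hc]⟩

end FermatAgent.PSEMI.LevelMp
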