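import Fermat.Agent.ES.PlusMinus
import Fermat.Agent.PSEMI.Model
import Fermat.Agent.BAD.Level

/-!
# The cusps of `±(Γ₀(p) ∩ Γ(M))`

Representatives are `(c, ∞) ↦ repI c` in `Γ₀(p)` and `(c, 0) ↦ A · dilHom (repI c)` with `A` the
Atkin matrix, so that the expansion at `(c, 0)` is that of the Atkin transform at `(c, ∞)`.
-/

set_option autoImplicit false

open UpperHalfPlane CongruenceSubgroup
open scoped MatrixGroups

noncomputable section

namespace FermatAgent.PSEMI.LevelMp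

open FermatAgent.ES (BSub SerIn HasLExp lexp lexp_eq hasLExp_lexp act modMat twistSer zetaC qm)
open FermatAgent.BAD (lam LSub atkin atkinMat atkinMat_mem atkinMat_dvd mem_Gamma0_dvd dilPt dilFun)

variable (p M : ℕ) [Fact p.Prime] [NeZero M]

/-- `±(Γ₀(p) ∩ Γ(M))`. -/
abbrev pmLam : Subgroup SL(2, ℤ) := ES.pmSub (lam p M)

/-- The stabiliser of `∞` modulo `±Γ(M)`. -/
def cuspSub : Subgroup SL(2, ℤ) where
  carrier := {γ | ((γ 1 0 : ℤ) : ZMod M) = 0 ∧
    (((γ 1 1 : ℤ) : ZMod M) = 1 ∨ ((γ 1 1 : ℤ) : ZMod M) = -1)}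
  one_mem' := by simp
  mul_mem' {x y} hx hy := by
    have h10 : ((x * y) 1 0 : ℤ) = x 1 0 * y 0 0 + x 1 1 * y 1 0 := by
      simp [Matrix.SpecialLinearGroup.coe_mul, Matrix.mul_apply, Fin.sum_univ_two]
    have h11 : ((x * y) 1 1 : ℤ) = x 1 0 * y 0 1 + x 1 1 * y 1 1 := by
      simp [Matrix.SpecialLinearGroup.coe_mul, Matrix.mul_apply, Fin.sum_univ_two]
    refine ⟨?_, ?_⟩
    · rw [h10]; push_cast; rw [hx.1, hy.1]; ring
    · rw [h11]; push_cast; rw [hx.1]
      rcases hx.2 with h | h <;> rcases hy.2 with h' | h' <;> simp [h, h']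
  inv_mem' {x} hx := by
    have h10 : (x⁻¹ 1 0 : ℤ) = -x 1 0 := by
      simp [Matrix.SpecialLinearGroup.coe_inv, Matrix.adjugate_fin_two]
    have h11 : (x⁻¹ 1 1 : ℤ) = x 0 0 := by
      simp [Matrix.SpecialLinearGroup.coe_inv, Matrix.adjugate_fin_two]
    have hdet := congrArg (Int.cast : ℤ → ZMod M)
      ((Matrix.det_fin_two (x : Matrix (Fin 2) (Fin 2) ℤ)).symm.trans x.2)
    push_cast at hdet
    rw [hx.1, mul_zero, sub_zero] at hdet
    refine ⟨by rw [h10]; push_cast; rw [hx.1, neg_zero], ?_⟩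
    rw [h11]
    rcases hx.2 with h | h <;> rw [h] at hdet
    · exact Or.inl (by rwa [mul_one] at hdet)
    · exact Or.inr (by rw [mul_neg, mul_one, neg_eq_iff_eq_neg] at hdet; exact hdet)

/-- The cusps of level `M`. -/
abbrev CI : Type := SL(2, ℤ) ⧸ cuspSub M

variable {p M}

omit [NeZero M] in
theorem gamma_le_cuspSub : Gamma M ≤ cuspSub M := fun γ hγ => by
  obtain ⟨-, -, hc, hd⟩ := Gamma_mem.mp hγ
  exact ⟨hc, Or.inl hd⟩

instance finite_CI : Finite (CI M) := by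
  have : (cuspSub M).FiniteIndex := Subgroup.finiteIndex_of_le gamma_le_cuspSub
  exact Subgroup.finite_quotient_of_finiteIndex

instance fintype_CI : Fintype (CI M) := Fintype.ofFinite _

omit [NeZero M] in
/-- `T ^ (M k)` lies in `Γ₀(p) ∩ Γ(M)`. -/
theorem T_pow_mem_lam (k : ℕ) : ModularGroup.T ^ (M * k) ∈ lam p M := by
  refine Subgroup.mem_inf.mpr ⟨Gamma0_mem.mpr ?_, Gamma_mem.mpr ?_⟩ <;>
    rw [ES.T_pow_coe] <;> simp

/-- The matrix of `(T ^ k)⁻¹`. -/
theorem T_pow_inv_coe (k : ℕ) :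
    (((ModularGroup.T ^ k)⁻¹ : SL(2, ℤ)) : Matrix (Fin 2) (Fin 2) ℤ) = !![1, -(k : ℤ); 0, 1] := by
  rw [Matrix.SpecialLinearGroup.coe_inv, ES.T_pow_coe, Matrix.adjugate_fin_two_of, neg_zero]

/-- The entries of the inverse of an element of `SL₂(ℤ)`. -/
theorem inv_entries (g : SL(2, ℤ)) :
    g⁻¹ 0 0 = g 1 1 ∧ g⁻¹ 0 1 = -g 0 1 ∧ g⁻¹ 1 0 = -g 1 0 ∧ g⁻¹ 1 1 = g 0 0 := by
  refine ⟨?_, ?_, ?_, ?_⟩ <;>
    simp [Matrix.SpecialLinearGroup.coe_inv, Matrix.adjugate_fin_two]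

omit [NeZero M] in
theorem T_zpow_mem_cuspSub (k : ℤ) : ModularGroup.T ^ k ∈ cuspSub M := by
  refine ⟨?_, Or.inl ?_⟩ <;> rw [ModularGroup.coe_T_zpow] <;> simp

/-- Chinese remainders in `SL₂(ℤ)`: residues modulo coprime `M` and `N` have a common lift. -/
theorem exists_crt {M N : ℕ} [NeZero M] [NeZero N] (hMN : M.Coprime N) (x y : SL(2, ℤ)) :
    ∃ γ : SL(2, ℤ), modMat M γ = modMat M x ∧ modMat N γ = modMat N y := by
  have : NeZero (M * N) := ⟨mul_ne_zero (NeZero.ne M) (NeZero.ne N)⟩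
  obtain ⟨u, v, huv⟩ := Nat.isCoprime_iff_coprime.mpr hMN
  set e : ZMod (M * N) := ((v * N : ℤ) : ZMod (M * N))
  set f : ZMod (M * N) := ((u * M : ℤ) : ZMod (M * N))
  have hef : e * f = 0 := by
    rw [← Int.cast_mul, ZMod.intCast_zmod_eq_zero_iff_dvd]
    exact ⟨u * v, by push_cast; ring⟩
  have hadd : f + e = 1 := by rw [← Int.cast_add, huv, Int.cast_one]
  let g : Fin 2 → Fin 2 → ZMod (M * N) := fun i j => e * (x i j : ℤ) + f * (y i j : ℤ)
  have hdx := congrArg (Int.cast : ℤ → ZMod (M * N))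
    ((Matrix.det_fin_two (x : Matrix (Fin 2) (Fin 2) ℤ)).symm.trans x.2)
  have hdy := congrArg (Int.cast : ℤ → ZMod (M * N))
    ((Matrix.det_fin_two (y : Matrix (Fin 2) (Fin 2) ℤ)).symm.trans y.2)
  push_cast at hdx hdy
  obtain ⟨γ, hγ⟩ := ES.exists_lift_modMat (a := g 0 0) (b := g 0 1) (c := g 1 0) (d := g 1 1) (by
    simp only [g]
    linear_combination e ^ 2 * hdx + f ^ 2 * hdy + (e + f + 1) * hadd +
      (((x 0 0 : ℤ) : ZMod (M * N)) * (y 1 1 : ℤ) + (y 0 0 : ℤ) * (x 1 1 : ℤ) -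
        ((x 0 1 : ℤ) : ZMod (M * N)) * (y 1 0 : ℤ) - (y 0 1 : ℤ) * (x 1 0 : ℤ) - 2) * hef)
  have hent : ∀ i j, ((γ i j : ℤ) : ZMod (M * N)) = g i j := fun i j => by
    have := congrFun (congrFun hγ i) j
    fin_cases i <;> fin_cases j <;> simpa [modMat] using this
  refine ⟨γ, ?_, ?_⟩
  · ext i j
    have h := congrArg (ZMod.castHom (dvd_mul_right M N) (ZMod M)) (hent i j)
    have he : ((v * N : ℤ) : ZMod M) = 1 := by
      rw [show v * (N : ℤ) = 1 - u * M by linarith]; push_cast; simp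
    simp only [g, e, f, map_intCast, map_add, map_mul, he, one_mul] at h
    simp [modMat, h]
  · ext i j
    have h := congrArg (ZMod.castHom (dvd_mul_left N M) (ZMod N)) (hent i j)
    have hf : ((u * M : ℤ) : ZMod N) = 1 := by
      rw [show u * (M : ℤ) = 1 - v * N by linarith]; push_cast; simp
    simp only [g, e, f, map_intCast, map_add, map_mul, hf, one_mul] at h
    simp [modMat, h]

omit [NeZero M] in
theorem mem_Gamma_of_eq {x y : SL(2, ℤ)} (h : modMat M x = modMat M y) : x⁻¹ * y ∈ Gamma M :=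
  ES.mem_Gamma_of_modMat
    (by rw [ES.modMat_mul, ← h, ← ES.modMat_mul, inv_mul_cancel, ES.modMat_one])

variable (hM : M.Coprime p)

/-- The representative in `Γ₀(p)` of a cusp of level `M`. -/
def repI (c : CI M) : SL(2, ℤ) := (exists_crt hM c.out 1).choose

theorem repI_spec (c : CI M) :
    modMat M (repI hM c) = modMat M c.out ∧ modMat p (repI hM c) = 1 :=
  ⟨(exists_crt hM c.out 1).choose_spec.1,
    by rw [repI, (exists_crt hM c.out 1).choose_spec.2, ES.modMat_one]⟩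

/-- The representative of a cusp of level `M` lies in `Γ₀(p)`. -/
theorem repI_mem (c : CI M) : repI hM c ∈ Gamma0 p := by
  have h := congrFun (congrFun (repI_spec hM c).2 1) 0
  rw [Gamma0_mem]
  simpa [modMat] using h

/-- `repI c` represents the cusp `c`. -/
theorem mk_repI (c : CI M) : ((repI hM c : SL(2, ℤ)) : CI M) = c := by
  conv_rhs => rw [← QuotientGroup.out_eq' c]
  exact QuotientGroup.eq.mpr (gamma_le_cuspSub (mem_Gamma_of_eq (repI_spec hM c).1))

variable (p)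

/-- The matrix `diag(p,1) γ diag(p,1)⁻¹`. -/
def dilMat (γ : Gamma0 p) : SL(2, ℤ) :=
  ⟨!![(γ : SL(2, ℤ)) 0 0, p * (γ : SL(2, ℤ)) 0 1; (γ : SL(2, ℤ)) 1 0 / p, (γ : SL(2, ℤ)) 1 1], by
    rw [Matrix.det_fin_two_of, mul_comm (p : ℤ), mul_assoc,
      Int.mul_ediv_cancel' (mem_Gamma0_dvd.mp γ.2), ← Matrix.det_fin_two, (γ : SL(2, ℤ)).2]⟩

omit [Fact (Nat.Prime p)] in
/-- The upper left entry of `diag(p,1) γ diag(p,1)⁻¹`. -/
@[simp] theorem dilMat_00 (γ : Gamma0 p) : dilMat p γ 0 0 = (γ : SL(2, ℤ)) 0 0 := rfl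
omit [Fact (Nat.Prime p)] in
/-- The upper right entry of `diag(p,1) γ diag(p,1)⁻¹`. -/
@[simp] theorem dilMat_01 (γ : Gamma0 p) : dilMat p γ 0 1 = p * (γ : SL(2, ℤ)) 0 1 := rfl
omit [Fact (Nat.Prime p)] in
/-- The lower left entry of `diag(p,1) γ diag(p,1)⁻¹`. -/
@[simp] theorem dilMat_10 (γ : Gamma0 p) : dilMat p γ 1 0 = (γ : SL(2, ℤ)) 1 0 / p := rfl
omit [Fact (Nat.Prime p)] in
/-- The lower right entry of `diag(p,1) γ diag(p,1)⁻¹`. -/
@[simp] theorem dilMat_11 (γ : Gamma0 p) : dilMat p γ 1 1 = (γ : SL(2, ℤ)) 1 1 := rfl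

/-- An entry of a product in `SL₂(ℤ)`. -/
theorem entry_mul (x y : SL(2, ℤ)) (i j : Fin 2) :
    (x * y) i j = x i 0 * y 0 j + x i 1 * y 1 j := by
  rw [Matrix.SpecialLinearGroup.coe_mul, Matrix.mul_apply, Fin.sum_univ_two]

theorem mul_dilMat (x y : Gamma0 p) : dilMat p (x * y) = dilMat p x * dilMat p y := by
  obtain ⟨a, ha⟩ := mem_Gamma0_dvd.mp x.2
  obtain ⟨b, hb⟩ := mem_Gamma0_dvd.mp y.2
  have hp : (p : ℤ) ≠ 0 := Nat.cast_ne_zero.mpr (NeZero.ne p)
  have ea : (p : ℤ) * a / p = a := Int.mul_ediv_cancel_left _ hp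
  have eb : (p : ℤ) * b / p = b := Int.mul_ediv_cancel_left _ hp
  refine Matrix.SpecialLinearGroup.ext (A := dilMat p (x * y)) (B := dilMat p x * dilMat p y)
    fun i j => ?_
  fin_cases i <;> fin_cases j
  · simp only [Fin.zero_eta, Fin.isValue, entry_mul, dilMat_00, dilMat_01, dilMat_10,
      Subgroup.coe_mul, hb,
      eb]
    ring
  · simp only [Fin.zero_eta, Fin.mk_one, Fin.isValue, entry_mul, dilMat_00, dilMat_01, dilMat_11,
      Subgroup.coe_mul]
    ring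
  · simp only [Fin.zero_eta, Fin.mk_one, Fin.isValue, entry_mul, dilMat_00, dilMat_10, dilMat_11,
      Subgroup.coe_mul, ha, hb, ea, eb]
    rw [show (p : ℤ) * a * (y : SL(2, ℤ)) 0 0 + (x : SL(2, ℤ)) 1 1 * ((p : ℤ) * b) =
      (p : ℤ) * (a * (y : SL(2, ℤ)) 0 0 + (x : SL(2, ℤ)) 1 1 * b) by ring,
      Int.mul_ediv_cancel_left _ hp]
  · simp only [Fin.mk_one, Fin.isValue, entry_mul, dilMat_01, dilMat_10, dilMat_11,
      Subgroup.coe_mul,
      ha, ea]
    ring

/-- Conjugation by `diag(p,1)`. -/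
def dilHom : Gamma0 p →* SL(2, ℤ) :=
  MonoidHom.mk' (dilMat p) (mul_dilMat p)

variable {p}

/-- `dilHom` has the matrix `dilMat`. -/
@[simp] theorem dilHom_apply (γ : Gamma0 p) : dilHom p γ = dilMat p γ := rfl

/-- `p (γ τ) = dilHom γ (p τ)`. -/
theorem dilPt_smul (γ : Gamma0 p) (τ : ℍ) :
    dilPt p ((γ : SL(2, ℤ)) • τ) = dilHom p γ • dilPt p τ := by
  obtain ⟨γ', h00, h01, h10, h11, h⟩ := BAD.exists_dil_conj p _ (mem_Gamma0_dvd.mp γ.2)
  rw [h, show dilHom p γ = γ' from ?_]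
  ext i j
  fin_cases i <;> fin_cases j
  · exact h00.symm
  · exact h01.symm
  · show (γ : SL(2, ℤ)) 1 0 / (p : ℤ) = γ' 1 0
    rw [← h10, Int.mul_ediv_cancel_left _ (Nat.cast_ne_zero.mpr (NeZero.ne p))]
  · exact h11.symm

theorem dilHom_injective : Function.Injective (dilHom p) := fun x y h => by
  have hp : (p : ℤ) ≠ 0 := Nat.cast_ne_zero.mpr (NeZero.ne p)
  refine Subtype.ext (Matrix.SpecialLinearGroup.ext _ _ fun i j => ?_)
  have e := congrArg (fun g : SL(2, ℤ) => g i j) h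
  fin_cases i <;> fin_cases j
  · simpa using e
  · simpa [NeZero.ne p] using e
  · obtain ⟨a, ha⟩ := mem_Gamma0_dvd.mp x.2
    obtain ⟨b, hb⟩ := mem_Gamma0_dvd.mp y.2
    simp [ha, hb] at e
    simp [ha, hb, e]
  · simpa using e

/-- The upper right entry of a dilation is divisible by `p`. -/
theorem dvd_dilHom (γ : Gamma0 p) : (p : ℤ) ∣ dilHom p γ 0 1 :=
  ⟨(γ : SL(2, ℤ)) 0 1, rfl⟩

/-- Every element with upper right entry divisible by `p` is a dilation. -/
theorem exists_dilHom_eq {g : SL(2, ℤ)} (hg : (p : ℤ) ∣ g 0 1) : ∃ γ, dilHom p γ = g := by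
  obtain ⟨b, hb⟩ := hg
  have hp : (p : ℤ) ≠ 0 := Nat.cast_ne_zero.mpr (NeZero.ne p)
  have hdet := (Matrix.det_fin_two (g : Matrix (Fin 2) (Fin 2) ℤ)).symm.trans g.2
  refine ⟨⟨⟨!![g 0 0, b; p * g 1 0, g 1 1], by
    rw [Matrix.det_fin_two_of]; linear_combination hdet + g 1 0 * hb⟩,
    mem_Gamma0_dvd.mpr ⟨_, rfl⟩⟩, ?_⟩
  refine Matrix.SpecialLinearGroup.ext _ _ fun i j => ?_
  fin_cases i <;> fin_cases j <;> simp [hb, Int.mul_ediv_cancel_left _ hp]

omit [NeZero M] in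
/-- Dilation preserves `Γ(M)`. -/
theorem dilHom_mem_Gamma (hM : M.Coprime p) {γ : Gamma0 p} (h : (γ : SL(2, ℤ)) ∈ Gamma M) :
    dilHom p γ ∈ Gamma M :=
  BAD.dil_conj_mem hM h rfl rfl
    (Int.mul_ediv_cancel' (mem_Gamma0_dvd.mp γ.2)) rfl

omit [NeZero M] in
include hM in
/-- An element whose dilation lies in `Γ(M)` lies in `Γ(M)`. -/
theorem of_dilHom_mem_Gamma {γ : Gamma0 p} (h : dilHom p γ ∈ Gamma M) :
    (γ : SL(2, ℤ)) ∈ Gamma M := by
  obtain ⟨a, b, c, d⟩ := Gamma_mem.mp h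
  have hu : IsUnit (p : ZMod M) := (ZMod.isUnit_iff_coprime p M).mpr hM.symm
  refine Gamma_mem.mpr ⟨a, ?_, ?_, d⟩
  · refine hu.mul_left_cancel ?_
    rw [mul_zero, ← b]
    show _ = (((p : ℤ) * (γ : SL(2, ℤ)) 0 1 : ℤ) : ZMod M)
    push_cast; rfl
  · rw [← Int.mul_ediv_cancel' (mem_Gamma0_dvd.mp γ.2)]
    push_cast
    rw [show ((((γ : SL(2, ℤ)) 1 0 / (p : ℤ) : ℤ)) : ZMod M) = 0 from c, mul_zero]

/-- Dilation commutes with negation. -/
theorem dilHom_neg {μ ν : Gamma0 p} (h : (ν : SL(2, ℤ)) = -(μ : SL(2, ℤ))) :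
    dilHom p ν = -dilHom p μ := by
  obtain ⟨a, ha⟩ := mem_Gamma0_dvd.mp μ.2
  have hp : (p : ℤ) ≠ 0 := Nat.cast_ne_zero.mpr (NeZero.ne p)
  refine Matrix.SpecialLinearGroup.ext _ _ fun i j => ?_
  have e := congrArg (fun g : SL(2, ℤ) => g i j) h
  have e01 := congrArg (fun g : SL(2, ℤ) => g 0 1) h
  have e10 := congrArg (fun g : SL(2, ℤ) => g 1 0) h
  simp only [Matrix.SpecialLinearGroup.coe_neg, Matrix.neg_apply] at e e01 e10 ⊢
  fin_cases i <;> fin_cases j
  · simpa using e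
  · simp [e01]
  · simp only [Fin.mk_one, Fin.zero_eta, Fin.isValue, dilHom_apply, dilMat_10, e10, ha]
    rw [show -((p : ℤ) * a) = p * -a by ring, Int.mul_ediv_cancel_left _ hp,
      Int.mul_ediv_cancel_left _ hp]
  · simpa using e

/-- The representative of a cusp of type `0`. -/
def repO (c : CI M) : SL(2, ℤ) := atkinMat hM * dilHom p ⟨repI hM c, repI_mem hM c⟩

/-- The representatives of the cusps of type `0` lie outside `Γ₀(p)`. -/
theorem repO_not_mem (c : CI M) : repO hM c ∉ Gamma0 p := BAD.atkin_type_inf hM (dvd_dilHom _)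

variable (p M) in
/-- The model at level `±(Γ₀(p) ∩ Γ(M))`. -/
def model : Model where
  lev := p * M
  Γ := pmLam p M
  C := CI M × Bool
  rep x := bif x.2 then repO hM x.1 else repI hM x.1
  wd x := bif x.2 then p * M else M
  wd_ne x := by cases x.2 <;> simp only [cond_false, cond_true] <;> infer_instance
  wd_dvd x := by
    cases x.2 <;> simp only [cond_false, cond_true] <;>
      first | exact dvd_rfl | exact dvd_mul_left M p
  per x := by
    rcases x with ⟨c, b⟩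
    cases b
    · have h := BAD.lam_normalised (repI_mem hM c) (T_pow_mem_lam (p := p) (M := M) 1)
      rw [mul_one] at h
      exact Or.inl h
    · refine Or.inl (BAD.gamma_qM_le ((Gamma_normal _).conj_mem _ ?_ _))
      show ModularGroup.T ^ (p * M) ∈ Gamma (p * M)
      rw [Gamma_mem, ES.T_pow_coe]
      simp
      rw [← Nat.cast_mul, ZMod.natCast_self]

/-- `Γ(p M)` lies in the group of the model. -/
theorem gamma_le_model : Gamma (model p M hM).lev ≤ (model p M hM).Γ :=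
  fun _ h => Or.inl (BAD.gamma_qM_le h)

omit [Fact (Nat.Prime p)] [NeZero M] in
/-- A function invariant under `Γ₀(p) ∩ Γ(M)` is invariant under `±(Γ₀(p) ∩ Γ(M))`. -/
theorem act_pm {u : ℍ → ℂ} (hu : ∀ γ ∈ lam p M, act γ u = u) {γ : SL(2, ℤ)}
    (hγ : γ ∈ pmLam p M) : act γ u = u := by
  rcases hγ with h | h
  · exact hu γ h
  · have h1 := hu _ h
    rwa [show -γ = (-1) * γ by simp, ES.act_mul, ES.act_neg_one] at h1

/-- The invariant functions of the model are the functions on `Γ₀(p) ∩ Γ(M)`. -/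
theorem mem_Fun_iff {u : ℍ → ℂ} : u ∈ (model p M hM).Fun ↔ u ∈ LSub p M := by
  constructor
  · intro h
    have hinv : ∀ γ ∈ lam p M, act γ u = u := fun γ hγ => by
      have := h.1 ⟨γ, Or.inl hγ⟩
      simpa using this
    exact ⟨⟨fun γ hγ => hinv γ (BAD.gamma_qM_le hγ), h.2⟩, hinv⟩
  · rintro ⟨h, hinv⟩
    exact ⟨fun γ => by rw [act_pm hinv γ.2, MonoidHom.one_apply, Units.val_one, one_smul], h.2⟩

/-- At the cusps of type `∞` functions on `Γ₀(p) ∩ Γ(M)` have expansions of width `M`. -/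
theorem hasLExp_inf {f : ℍ → ℂ} (hf : f ∈ LSub p M) {γ : SL(2, ℤ)} (hγ : γ ∈ Gamma0 p) :
    HasLExp M (act γ f) (lexp M γ f) := by
  obtain ⟨t, ht, -⟩ := BAD.exists_hasLExp_descend (hasLExp_lexp hf.1 γ)
    fun n hn => BAD.coeff_eq_zero_of_not_dvd_type hf hγ hn
  rwa [lexp_eq ht]

/-- At the cusps of type `∞` the expansion of level `p M` expands that of level `M`. -/
theorem lexp_inf_level {f : ℍ → ℂ} (hf : f ∈ LSub p M) {γ : SL(2, ℤ)} (hγ : γ ∈ Gamma0 p) :
    lexp (p * M) γ f = BAD.expandL p (lexp M γ f) :=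
  lexp_eq (BAD.hasLExp_raise p (hasLExp_inf hf hγ))

omit [NeZero M] in
theorem hasLExp_dil_down {g : ℍ → ℂ} {s : LaurentSeries ℂ} (h : HasLExp (p * M) g s) :
    HasLExp M (dilFun p g) s := by
  obtain ⟨r, c, hc, rfl⟩ := h
  refine ⟨r, c, fun τ => ?_, rfl⟩
  have e : qm (p * M) (dilPt p τ) = qm M τ := by
    rw [BAD.qm_dilPt, ES.qm_mul_pow (NeZero.ne p)]
  have h1 := hc (dilPt p τ)
  simp only [e] at h1
  exact h1

/-- A translate by `γ` of the Atkin transform is the dilate of the translate by `A · dilHom γ`. -/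
theorem act_atkin (f : ℍ → ℂ) (γ : Gamma0 p) :
    act (γ : SL(2, ℤ)) (atkin hM f) = dilFun p (act (atkinMat hM * dilHom p γ) f) := by
  funext τ
  rw [ES.act_apply, BAD.atkin_apply_pt, dilPt_smul, BAD.dilFun_apply, ES.act_apply, mul_smul]

/-- The expansion of the Atkin transform at `γ` is that of the function at `A · dilHom γ`. -/
theorem lexp_repO {f : ℍ → ℂ} (hf : f ∈ LSub p M) (γ : Gamma0 p) :
    lexp M (γ : SL(2, ℤ)) (atkin hM f) = lexp (p * M) (atkinMat hM * dilHom p γ) f := by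
  refine lexp_eq ?_
  rw [act_atkin]
  exact hasLExp_dil_down (hasLExp_lexp hf.1 _)

variable {hM}

/-- The expansion at a cusp of type `∞` is that at its representative. -/
theorem E_inf {f : ℍ → ℂ} (hf : f ∈ LSub p M) (c : CI M) :
    (model p M hM).E (c, false) f = lexp M (repI hM c) f :=
  Model.E_eq (hasLExp_inf hf (repI_mem hM c))

/-- The expansion at a cusp of type `0` is that of the Atkin transform at the representative. -/
theorem E_zero' {f : ℍ → ℂ} (hf : f ∈ LSub p M) (c : CI M) :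
    (model p M hM).E (c, true) f = lexp M (repI hM c) (atkin hM f) := by
  refine Model.E_eq ?_
  rw [show lexp M (repI hM c) (atkin hM f) = _ from lexp_repO hM hf ⟨_, repI_mem hM c⟩]
  exact hasLExp_lexp hf.1 _

/-! ### The decomposition -/

section Decomp

variable (hM)

/-- An element of the stabiliser of `∞` is `±` a power of `T` modulo `Γ(M)`. -/
theorem eq_pm_of_cuspSub {h : SL(2, ℤ)} (hh : h ∈ cuspSub M) :
    ∃ k : ℕ, (h * (ModularGroup.T ^ k)⁻¹ ∈ Gamma M ∨ -(h * (ModularGroup.T ^ k)⁻¹) ∈ Gamma M) := by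
  have hdet := congrArg (Int.cast : ℤ → ZMod M)
    ((Matrix.det_fin_two (h : Matrix (Fin 2) (Fin 2) ℤ)).symm.trans h.2)
  push_cast at hdet
  rw [hh.1, mul_zero, sub_zero] at hdet
  set s : ZMod M := ((h 1 1 : ℤ) : ZMod M)
  have hs : s * s = 1 := by rcases hh.2 with e | e <;> rw [show s = _ from e] <;> ring
  have h00 : ((h 0 0 : ℤ) : ZMod M) = s := by linear_combination s * hdet - (h 0 0 : ℤ) * hs
  refine ⟨(s * (h 0 1 : ℤ)).val, ?_⟩
  set k := (s * (h 0 1 : ℤ)).val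
  have hk : (k : ZMod M) = s * (h 0 1 : ℤ) := ZMod.natCast_zmod_val _
  set g := h * (ModularGroup.T ^ k)⁻¹
  have hg : modMat M g = !![s, 0; 0, s] := by
    have e : g * ModularGroup.T ^ k = h := by simp [g]
    have e' := congrArg (modMat M) e
    rw [ES.modMat_mul] at e'
    have hT : modMat M (ModularGroup.T ^ k) * modMat M (ModularGroup.T ^ k)⁻¹ = 1 := by
      rw [← ES.modMat_mul, mul_inv_cancel, ES.modMat_one]
    calc modMat M g = modMat M h * modMat M (ModularGroup.T ^ k)⁻¹ := by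
          rw [← e', mul_assoc, hT, mul_one]
      _ = _ := by
        ext i j
        fin_cases i <;> fin_cases j <;>
          simp [modMat, Matrix.mul_apply, Fin.sum_univ_two, T_pow_inv_coe,
            -Matrix.SpecialLinearGroup.coe_inv, h00, hh.1,
            hk, s]
        linear_combination -((h 0 1 : ℤ) : ZMod M) * hs
  rcases hh.2 with e | e
  · exact Or.inl (ES.mem_Gamma_of_modMat (by
      rw [hg, show s = 1 from e]; ext i j; fin_cases i <;> fin_cases j <;> simp))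
  · refine Or.inr (ES.mem_Gamma_of_modMat ?_)
    have : modMat M (-g) = -modMat M g := by ext i j; simp [modMat]
    rw [this, hg, show s = -1 from e]
    ext i j; fin_cases i <;> fin_cases j <;> simp

omit [Fact (Nat.Prime p)] in
/-- `Γ₀(p)` is stable under negation. -/
theorem neg_mem_Gamma0 {g : SL(2, ℤ)} (h : g ∈ Gamma0 p) : -g ∈ Gamma0 p := by
  rw [mem_Gamma0_dvd] at h ⊢
  simpa using h.neg_right

/-- Every element of `Γ₀(p)` is `λ · repI c · T ^ k`. -/
theorem exists_decomp_inf {γ : SL(2, ℤ)} (hγ : γ ∈ Gamma0 p) :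
    ∃ c : CI M, ∃ k : ℕ, γ * (repI hM c * ModularGroup.T ^ k)⁻¹ ∈ pmLam p M := by
  set c : CI M := (γ : CI M)
  have hh : (repI hM c)⁻¹ * γ ∈ cuspSub M := QuotientGroup.eq.mp (mk_repI hM c)
  obtain ⟨k, hk⟩ := eq_pm_of_cuspSub hh
  refine ⟨c, k, ?_⟩
  set R := repI hM c
  set x := R⁻¹ * γ * (ModularGroup.T ^ k)⁻¹ with hx
  have hR := repI_mem hM c
  have hTk : ModularGroup.T ^ k ∈ Gamma0 p := by
    rw [Gamma0_mem, ES.T_pow_coe]; simp
  have hx0 : x ∈ Gamma0 p := mul_mem (mul_mem (inv_mem hR) hγ) (inv_mem hTk)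
  rw [show γ * (R * ModularGroup.T ^ k)⁻¹ = R * x * R⁻¹ by rw [hx]; group]
  rcases hk with h | h
  · exact Or.inl (BAD.lam_normalised hR ⟨hx0, h⟩)
  · refine Or.inr ?_
    rw [← neg_mul, ← mul_neg]
    exact BAD.lam_normalised hR ⟨neg_mem_Gamma0 hx0, h⟩

/-- The decomposition is unique. -/
theorem decomp_inf_inj {c c' : CI M} {k k' : ℤ}
    (h : repI hM c * ModularGroup.T ^ k * (repI hM c' * ModularGroup.T ^ k')⁻¹ ∈ pmLam p M) :
    c = c' ∧ (M : ℤ) ∣ k - k' := by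
  have hcs : ∀ {g : SL(2, ℤ)}, g ∈ pmLam p M → g ∈ cuspSub M ∧
      (modMat M g = 1 ∨ modMat M g = -1) := by
    intro g hg
    rcases hg with h | h
    · exact ⟨gamma_le_cuspSub h.2, Or.inl (ES.modMat_eq_one_of_mem h.2)⟩
    · have hn : modMat M (-g) = -modMat M g := by ext i j; simp [modMat]
      refine ⟨?_, Or.inr (by rw [← neg_neg (modMat M g), ← hn, ES.modMat_eq_one_of_mem h.2])⟩
      obtain ⟨-, -, hc, hd⟩ := Gamma_mem.mp h.2
      exact ⟨by simpa using hc, Or.inr (by simpa [neg_eq_iff_eq_neg] using hd)⟩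
  set x := repI hM c * ModularGroup.T ^ k * (repI hM c' * ModularGroup.T ^ k')⁻¹ with hx
  have hconj : (repI hM c)⁻¹ * x * repI hM c ∈ pmLam p M := by
    rcases h with h | h
    · refine Or.inl ?_
      have := BAD.lam_normalised (inv_mem (repI_mem hM c)) h
      rwa [inv_inv] at this
    · refine Or.inr ?_
      have := BAD.lam_normalised (inv_mem (repI_mem hM c)) h
      rw [inv_inv, mul_neg, neg_mul] at this
      exact this
  have hcc : c = c' := by
    rw [← mk_repI hM c, ← mk_repI hM c']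
    refine QuotientGroup.eq.mpr ?_
    have e : (repI hM c)⁻¹ * repI hM c' = ((repI hM c)⁻¹ * x * repI hM c)⁻¹ *
        ((repI hM c)⁻¹ * x * repI hM c) * ((repI hM c)⁻¹ * x * repI hM c)⁻¹ * 1 *
        ModularGroup.T ^ k * (ModularGroup.T ^ k')⁻¹ := by
      rw [hx]; group
    rw [e]
    refine mul_mem (mul_mem (mul_mem (mul_mem (mul_mem ?_ ?_) ?_) (one_mem _)) ?_) ?_
    · exact inv_mem (hcs hconj).1
    · exact (hcs hconj).1
    · exact inv_mem (hcs hconj).1
    · exact T_zpow_mem_cuspSub k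
    · exact inv_mem (T_zpow_mem_cuspSub k')
  refine ⟨hcc, ?_⟩
  subst hcc
  have e : (repI hM c)⁻¹ * x * repI hM c = ModularGroup.T ^ (k - k') := by rw [hx]; group
  rw [e] at hconj
  rw [← ZMod.intCast_zmod_eq_zero_iff_dvd]
  rcases (hcs hconj).2 with h1 | h1 <;>
    simpa [modMat, ModularGroup.coe_T_zpow] using congrFun (congrFun h1 0) 1

/-- Every element outside `Γ₀(p)` is `λ · repO c · T ^ k`. -/
theorem exists_decomp_zero {γ : SL(2, ℤ)} (hγ : γ ∉ Gamma0 p) :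
    ∃ c : CI M, ∃ k : ℕ, γ * (repO hM c * ModularGroup.T ^ k)⁻¹ ∈ pmLam p M := by
  obtain ⟨j, -, hj⟩ := BAD.exists_ctr_index p Fact.out hM γ fun h => hγ (mem_Gamma0_dvd.mpr h)
  set A := atkinMat hM
  set g := A⁻¹ * γ * (ModularGroup.T ^ j)⁻¹ with hg
  have hg01 : (p : ℤ) ∣ g 0 1 := by
    obtain ⟨-, hA⟩ := atkinMat_dvd hM
    rw [← ZMod.intCast_zmod_eq_zero_iff_dvd] at hA hj ⊢
    push_cast at hj
    obtain ⟨e00, e01, -, -⟩ := inv_entries A
    obtain ⟨t00, t01, t10, t11⟩ := inv_entries (ModularGroup.T ^ j)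
    rw [hg, entry_mul, entry_mul, entry_mul, e00, e01, t01, t11, ES.T_pow_coe]
    simp [hA, A]
    linear_combination -((atkinMat hM 0 1 : ℤ) : ZMod p) * hj
  obtain ⟨h, hh⟩ := exists_dilHom_eq hg01
  obtain ⟨c, k, hck⟩ := exists_decomp_inf hM h.2
  refine ⟨c, p * k + j, ?_⟩
  set R : Gamma0 p := ⟨repI hM c, repI_mem hM c⟩
  set T1 : Gamma0 p := ⟨ModularGroup.T, by rw [Gamma0_mem, ModularGroup.coe_T]; simp⟩
  have hT1 : dilHom p T1 = ModularGroup.T ^ p := by
    refine Matrix.SpecialLinearGroup.ext _ _ fun a b => ?_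
    rw [ES.T_pow_coe]
    fin_cases a <;> fin_cases b <;> simp [T1, ModularGroup.coe_T]
  set μ := h * (R * T1 ^ k)⁻¹ with hμ
  have hμe : dilHom p μ = g * (dilHom p R * ModularGroup.T ^ (p * k))⁻¹ := by
    rw [hμ, map_mul, map_inv, map_mul, map_pow, hT1, hh, pow_mul]
  have hA0 : atkinMat hM * dilHom p μ * (atkinMat hM)⁻¹ ∈ Gamma0 p := by
    obtain ⟨-, hA⟩ := atkinMat_dvd hM
    rw [← ZMod.intCast_zmod_eq_zero_iff_dvd] at hA
    have h01 := (ZMod.intCast_zmod_eq_zero_iff_dvd _ _).mpr (dvd_dilHom (p := p) μ)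
    obtain ⟨e00, -, e10, -⟩ := inv_entries (atkinMat hM)
    rw [Gamma0_mem, entry_mul, entry_mul, entry_mul, e00, e10]
    push_cast
    rw [hA, h01]
    ring
  rw [show γ * (repO hM c * ModularGroup.T ^ (p * k + j))⁻¹ =
    atkinMat hM * dilHom p μ * (atkinMat hM)⁻¹ by rw [hμe, hg, repO]; simp only [A, R]; group]
  rcases hck with h1 | h1
  · exact Or.inl ⟨hA0, (Gamma_normal M).conj_mem _
      (dilHom_mem_Gamma hM (γ := μ) h1.2) _⟩
  · refine Or.inr ⟨neg_mem_Gamma0 hA0, ?_⟩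
    set ν : Gamma0 p := ⟨-(μ : SL(2, ℤ)), neg_mem_Gamma0 μ.2⟩
    have hνe : dilHom p ν = -dilHom p μ := dilHom_neg rfl
    have := (Gamma_normal M).conj_mem _ (dilHom_mem_Gamma hM (γ := ν) h1.2) (atkinMat hM)
    rw [hνe, mul_neg, neg_mul] at this
    exact this

/-- The decomposition is unique. -/
theorem decomp_zero_inj {c c' : CI M} {k k' : ℤ}
    (h : repO hM c * ModularGroup.T ^ k * (repO hM c' * ModularGroup.T ^ k')⁻¹ ∈ pmLam p M) :
    c = c' ∧ ((p * M : ℕ) : ℤ) ∣ k - k' := by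
  set A := atkinMat hM
  set R : Gamma0 p := ⟨repI hM c, repI_mem hM c⟩
  set R' : Gamma0 p := ⟨repI hM c', repI_mem hM c'⟩
  set x := repO hM c * ModularGroup.T ^ k * (repO hM c' * ModularGroup.T ^ k')⁻¹ with hx
  have hA01 : ∀ {y : SL(2, ℤ)}, y ∈ Gamma0 p → (p : ℤ) ∣ (A⁻¹ * y * A) 0 1 := by
    intro y hy
    obtain ⟨-, hA⟩ := atkinMat_dvd hM
    rw [Gamma0_mem] at hy
    rw [← ZMod.intCast_zmod_eq_zero_iff_dvd] at hA ⊢
    obtain ⟨e00, e01, -, -⟩ := inv_entries A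
    rw [entry_mul, entry_mul, entry_mul, e00, e01]
    simp [hA, hy, A]
  have hx0 : x ∈ Gamma0 p := by
    rcases h with h | h
    · exact h.1
    · simpa using neg_mem_Gamma0 h.1
  obtain ⟨μ, hμ⟩ := exists_dilHom_eq (hA01 hx0)
  have hTd : (p : ℤ) ∣ k - k' := by
    have e : ModularGroup.T ^ (k - k') = (dilHom p R)⁻¹ * dilHom p μ * dilHom p R' := by
      rw [hμ, hx, repO, repO]; simp only [A, R, R']; group
    rw [← map_inv, ← map_mul, ← map_mul] at e
    have := dvd_dilHom (p := p) (R⁻¹ * μ * R')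
    rw [← e, ModularGroup.coe_T_zpow] at this
    simpa using this
  obtain ⟨l, hl⟩ := hTd
  set T1 : Gamma0 p := ⟨ModularGroup.T, by rw [Gamma0_mem, ModularGroup.coe_T]; simp⟩
  have hT1 : dilHom p T1 = ModularGroup.T ^ (p : ℤ) := by
    refine Matrix.SpecialLinearGroup.ext _ _ fun a b => ?_
    rw [ModularGroup.coe_T_zpow]
    fin_cases a <;> fin_cases b <;> simp [T1, ModularGroup.coe_T]
  have e2 : R * T1 ^ l * (R' * T1 ^ (0 : ℤ))⁻¹ = μ := dilHom_injective (by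
    rw [map_mul, map_inv, map_mul, map_mul, map_zpow, map_zpow, hT1, ← zpow_mul, ← hl, hμ, hx,
      repO, repO]
    simp only [A, R, R']
    group)
  have hμpm : (μ : SL(2, ℤ)) ∈ pmLam p M := by
    rcases h with h | h
    · refine Or.inl ⟨μ.2, of_dilHom_mem_Gamma hM ?_⟩
      rw [hμ]
      simpa using (Gamma_normal M).conj_mem _ h.2 A⁻¹
    · refine Or.inr ⟨neg_mem_Gamma0 μ.2, ?_⟩
      set ν : Gamma0 p := ⟨-(μ : SL(2, ℤ)), neg_mem_Gamma0 μ.2⟩
      have hνe : dilHom p ν = -dilHom p μ := dilHom_neg rfl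
      refine of_dilHom_mem_Gamma hM (γ := ν) ?_
      rw [hνe, hμ, ← neg_mul, ← mul_neg]
      simpa using (Gamma_normal M).conj_mem _ h.2 A⁻¹
  obtain ⟨hc, hd⟩ := decomp_inf_inj hM (c := c) (c' := c') (k := l) (k' := 0) (by
    have := congrArg (Subtype.val : Gamma0 p → SL(2, ℤ)) e2
    simp only [Subgroup.coe_mul, Subgroup.coe_inv, SubgroupClass.coe_zpow] at this
    rw [← this] at hμpm
    exact hμpm)
  refine ⟨hc, ?_⟩
  rw [hl, Nat.cast_mul]
  exact mul_dvd_mul_left _ (by simpa using hd)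

end Decomp

section Propagate

variable (hM)

/-- An expansion at a cusp of type `∞` is a twist of that at a representative. -/
theorem exists_twist_inf {γ : SL(2, ℤ)} (hγ : γ ∈ Gamma0 p) :
    ∃ c : CI M, ∃ k : ℕ, ∀ f ∈ LSub p M,
      lexp M γ f = twistSer (zetaC M ^ k) (lexp M (repI hM c) f) := by
  obtain ⟨c, k, hck⟩ := exists_decomp_inf hM hγ
  refine ⟨c, k, fun f hf => lexp_eq ?_⟩
  set x := γ * (repI hM c * ModularGroup.T ^ k)⁻¹ with hx
  rw [show γ = x * repI hM c * ModularGroup.T ^ k by rw [hx]; group, ES.act_mul, ES.act_mul,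
    act_pm hf.2 hck]
  exact ES.hasLExp_act_T_pow (hasLExp_inf hf (repI_mem hM c)) k

/-- An expansion at a cusp of type `0` is a twist of that at a representative. -/
theorem exists_twist_zero {γ : SL(2, ℤ)} (hγ : γ ∉ Gamma0 p) :
    ∃ c : CI M, ∃ k : ℕ, ∀ f ∈ LSub p M,
      lexp (p * M) γ f = twistSer (zetaC (p * M) ^ k) (lexp M (repI hM c) (atkin hM f)) := by
  obtain ⟨c, k, hck⟩ := exists_decomp_zero hM hγ
  refine ⟨c, k, fun f hf => lexp_eq ?_⟩
  rw [show lexp M (repI hM c) (atkin hM f) = _ from lexp_repO hM hf ⟨_, repI_mem hM c⟩]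
  set x := γ * (repO hM c * ModularGroup.T ^ k)⁻¹ with hx
  rw [show γ = x * repO hM c * ModularGroup.T ^ k by rw [hx]; group, ES.act_mul, ES.act_mul,
    act_pm hf.2 hck]
  exact ES.hasLExp_act_T_pow (hasLExp_lexp hf.1 _) k

end Propagate

end FermatAgent.PSEMI.LevelMp
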