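import Fermat.Agent.PSEMI.LevelMp.Compon
import Fermat.Agent.ES.Ring.Haupt
import Fermat.Agent.ES.Ring.Fibre

/-!
# `p`-th roots of reductions at level `M`

Every reduced function is `∑_{i<p} v^i g_i^p` with `v = t - 1`, whose order at `∞` is prime
to `p`; a reduction which is a `p`-th power at one cusp is therefore one everywhere.
-/

set_option autoImplicit false

open UpperHalfPlane CongruenceSubgroup
open scoped MatrixGroups
open FermatAgent.Curve (SGE)

noncomputable section

namespace FermatAgent.PSEMI.LevelMp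

open FermatAgent.ES (CPlace AuxLevel BSub BRing SerIn lexp lexp_eq hasLExp_lexp act polFun haupt
  LeadUnit GalGrp repG trG sepA sepB)
open FermatAgent.Curve.Red (ResField placeDatum)

variable {p M : ℕ} [hp : Fact p.Prime] [NeZero M] {P : CPlace p} (hM : M.Coprime p)
  {m : ℕ} (haux : AuxLevel M m)

/-- `t - 1`. -/
def vB : BRing M P.ring :=
  ⟨haupt haux.dvd - 1,
    sub_mem (ES.polFun_mem_BRing haux (P.goodRoot hM) (ES.one_le haux)) (one_mem _)⟩

omit hp in
theorem order_vB : ∃ w : ℕ, w ∣ M ∧ 0 < w ∧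
    LeadUnit P.ring (lexp M 1 ((vB hM haux : BRing M P.ring) : ℍ → ℂ)) w := by
  have hA := P.goodRoot hM
  have := haux.neZero
  refine ⟨M / m, Nat.div_dvd_of_dvd haux.dvd,
    Nat.div_pos (Nat.le_of_dvd (NeZero.pos M) haux.dvd) (NeZero.pos m), ?_⟩
  have h0 := ES.leadUnit_polFun haux hA 0 0 (Nat.zero_le m)
  rw [(ES.polOrd_table haux.small 0 (Nat.zero_le m) 0 (Nat.zero_le m)).1 rfl,
    show ES.cuspRep 0 = 1 from rfl] at h0
  have hmem0 := ES.polFun_mem_BSub haux 0 (Nat.zero_le m)
  have hv : ((vB hM haux : BRing M P.ring) : ℍ → ℂ) ∈ BSub M := (vB hM haux).2.1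
  have hprod : lexp M 1 (polFun haux.dvd 0) *
      lexp M 1 ((vB hM haux : BRing M P.ring) : ℍ → ℂ) = 1 := by
    rw [show (1 : LaurentSeries ℂ) = lexp M 1 (1 : ℍ → ℂ) from (lexp_eq ES.HasLExp.one).symm,
      ← ES.polFun_zero_mul haux]
    exact (lexp_eq ((hasLExp_lexp hmem0 1).mul (hasLExp_lexp hv 1))).symm
  rw [eq_inv_of_mul_eq_one_right hprod]
  convert h0.inv using 1
  ring

/-- The combinations `∑ v̄^i g_i^p`. -/
def VForm (x : LaurentSeries (ResField P)) : Prop :=
  ∃ g : ℕ → BRing M P.ring,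
    x = ∑ i ∈ Finset.range p, rH P hM 1 (vB hM haux) ^ i * rH P hM 1 (g i) ^ p

variable {hM haux}

theorem VForm.of_sum {ι : Type*} (s : Finset ι) (e : ι → ℕ) (g : ι → BRing M P.ring) :
    VForm hM haux (∑ j ∈ s, rH P hM 1 (vB hM haux) ^ e j * rH P hM 1 (g j) ^ p) := by
  classical
  refine ⟨fun i => ∑ j ∈ s.filter (fun j => e j % p = i), vB hM haux ^ (e j / p) * g j, ?_⟩
  rw [← Finset.sum_fiberwise_of_maps_to (g := fun j => e j % p) (t := Finset.range p)
    fun j _ => Finset.mem_range.mpr (Nat.mod_lt _ hp.out.pos)]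
  refine Finset.sum_congr rfl fun i _ => ?_
  rw [map_sum, sum_pow_char, Finset.mul_sum]
  refine Finset.sum_congr rfl fun j hj => ?_
  rw [map_mul, map_pow, mul_pow, ← pow_mul, ← mul_assoc, ← pow_add,
    ← (Finset.mem_filter.mp hj).2, Nat.mul_comm, Nat.mod_add_div]

/-- `v̄ ^ e g ^ p` has the shape `∑ v̄^i g_i^p`, for every exponent `e`. -/
theorem VForm.single (e : ℕ) (g : BRing M P.ring) :
    VForm hM haux (rH P hM 1 (vB hM haux) ^ e * rH P hM 1 g ^ p) := by
  have h := VForm.of_sum (hM := hM) (haux := haux) {()} (fun _ => e) (fun _ => g)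
  rwa [Finset.sum_singleton] at h

theorem VForm.pow_p (g : BRing M P.ring) : VForm hM haux (rH P hM 1 g ^ p) := by
  simpa using VForm.single (hM := hM) (haux := haux) 0 g

/-- Zero has this shape. -/
theorem VForm.zero : VForm hM haux (0 : LaurentSeries (ResField P)) := by
  simpa [zero_pow hp.out.ne_zero] using VForm.pow_p (hM := hM) (haux := haux) 0

/-- Sums of series of this shape have it. -/
theorem VForm.add {x y : LaurentSeries (ResField P)} (hx : VForm hM haux x)
    (hy : VForm hM haux y) : VForm hM haux (x + y) := by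
  obtain ⟨g, rfl⟩ := hx
  obtain ⟨g', rfl⟩ := hy
  refine ⟨fun i => g i + g' i, ?_⟩
  rw [← Finset.sum_add_distrib]
  exact Finset.sum_congr rfl fun i _ => by rw [map_add, add_pow_char, mul_add]

/-- Finite sums of series of this shape have it. -/
theorem VForm.sum {ι : Type*} (s : Finset ι) {x : ι → LaurentSeries (ResField P)}
    (h : ∀ i ∈ s, VForm hM haux (x i)) : VForm hM haux (∑ i ∈ s, x i) :=
  Finset.sum_induction _ _ (fun _ _ => VForm.add) VForm.zero h

/-- Products of series of this shape have it. -/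
theorem VForm.mul {x y : LaurentSeries (ResField P)} (hx : VForm hM haux x)
    (hy : VForm hM haux y) : VForm hM haux (x * y) := by
  obtain ⟨g, rfl⟩ := hx
  obtain ⟨g', rfl⟩ := hy
  rw [Finset.sum_mul_sum]
  refine VForm.sum _ fun i _ => VForm.sum _ fun j _ => ?_
  rw [mul_mul_mul_comm, ← pow_add, ← mul_pow, ← map_mul]
  exact VForm.single _ _

variable (K : Coeffs P)

include K in
/-- Constants have this shape, the residue field being perfect. -/
theorem VForm.const (a : P.ring) :
    VForm hM haux (rH P hM 1 ⟨fun _ => (a : ℂ), ES.const_mem_BRing a.2⟩) := by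
  obtain ⟨n, hn, hx⟩ := K.resFix (rd a)
  obtain ⟨k, rfl⟩ : ∃ k, n = k + 1 := ⟨n - 1, by omega⟩
  set c : P.ring := a ^ p ^ k
  have e : rH P hM 1 (⟨fun _ => (a : ℂ), ES.const_mem_BRing a.2⟩ : BRing M P.ring) =
      rH P hM 1 (⟨fun _ => (c : ℂ), ES.const_mem_BRing c.2⟩ : BRing M P.ring) ^ p := by
    have hC : ∀ b : P.ring,
        rH P hM 1 (⟨fun _ => (b : ℂ), ES.const_mem_BRing b.2⟩ : BRing M P.ring) =
        HahnSeries.C (rd b) := fun b => by
      rw [rH_apply, show lexp M 1 (fun _ : ℍ => (b : ℂ)) = HahnSeries.C (b : ℂ) from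
        lexp_eq (ES.HasLExp.const _), red_C b.2]
    rw [hC, hC, ← map_pow, ← map_pow, ← pow_mul, ← pow_succ, map_pow, hx]
  rw [e]
  exact VForm.pow_p _

/-- `v̄` has this shape. -/
theorem VForm.gen : VForm hM haux (rH P hM 1 (vB hM haux)) := by
  simpa using VForm.single (hM := hM) (haux := haux) 1 1

include K in
theorem VForm.polFun' {j : ℕ} (hj : j ≤ m) :
    VForm hM haux (rH P hM 1
      ⟨polFun haux.dvd j, ES.polFun_mem_BRing haux (P.goodRoot hM) hj⟩) := by
  have hA := P.goodRoot hM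
  have h1 : VForm hM haux (rH P hM 1 (1 : BRing M P.ring)) := by
    simpa using VForm.pow_p (hM := hM) (haux := haux) 1
  rcases ES.polFun_cases haux hA hj with e | ⟨α, r, hα, hr, e⟩
  · rw [show (⟨polFun haux.dvd j, ES.polFun_mem_BRing haux hA hj⟩ : BRing M P.ring) =
      vB hM haux + 1 from Subtype.ext (e.trans (sub_add_cancel (haupt haux.dvd) 1).symm), map_add]
    exact VForm.gen.add h1
  · have hrR : r ∈ P.ring := by
      rcases hr with rfl | rfl | rfl
      · exact P.ring.zero_mem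
      · exact P.ring.one_mem
      · exact (ES.hauptRoot_spec haux hA).1
    set π : BRing M P.ring := ⟨polFun haux.dvd j, ES.polFun_mem_BRing haux hA hj⟩
    set u : BRing M P.ring :=
      (⟨fun _ => α⁻¹, ES.const_mem_BRing hα.2.2⟩ : BRing M P.ring) *
        (vB hM haux + (⟨fun _ => 1 - r, ES.const_mem_BRing (P.ring.sub_mem P.ring.one_mem hrR)⟩ :
          BRing M P.ring))
    have hu : VForm hM haux (rH P hM 1 u) := by
      simp only [u, map_mul, map_add]
      exact (VForm.const K ⟨α⁻¹, hα.2.2⟩).mul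
        (VForm.gen.add (VForm.const K ⟨1 - r, P.ring.sub_mem P.ring.one_mem hrR⟩))
    have hπu : π * u = 1 := Subtype.ext (funext fun τ => by
      show polFun haux.dvd j τ * (α⁻¹ * (haupt haux.dvd τ - 1 + (1 - r))) = 1
      have := hα.1
      rw [show haupt haux.dvd τ - 1 + (1 - r) = haupt haux.dvd τ - r by ring, mul_left_comm, e τ,
        inv_mul_cancel₀ this])
    have hpow : π = π ^ p * u ^ (p - 1) := by
      calc π = π * (π * u) ^ (p - 1) := by rw [hπu, one_pow, mul_one]
        _ = π ^ (p - 1 + 1) * u ^ (p - 1) := by rw [mul_pow, pow_succ', mul_assoc]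
        _ = _ := by rw [Nat.sub_add_cancel hp.out.one_le]
    rw [hpow, map_mul, map_pow, map_pow]
    refine (VForm.pow_p π).mul ?_
    induction (p - 1) with
    | zero => rw [pow_zero, ← map_one (rH P hM 1)]; exact h1
    | succ k ih => rw [pow_succ]; exact ih.mul hu

variable (hM haux)

include K in
/-- Every reduced function has the shape `∑ v̄^i g_i^p`. -/
theorem vForm_all (f : BRing M P.ring) : VForm hM haux (rH P hM 1 f) := by
  classical
  have hA := P.goodRoot hM
  have hpol : ∀ K' : BRing M P.ring, (K' : ℍ → ℂ) ∈ ES.polRing haux P.ring →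
      VForm hM haux (rH P hM 1 K') := by
    intro K' hK'
    suffices H : ∀ g, g ∈ ES.polRing haux P.ring → ∃ h : g ∈ BRing M P.ring,
        VForm hM haux (rH P hM 1 ⟨g, h⟩) from (H _ hK').2
    intro g hg
    induction hg using Subring.closure_induction with
    | mem g hg =>
      rcases hg with ⟨a, ha, rfl⟩ | ⟨j, hj, rfl⟩
      · exact ⟨ES.const_mem_BRing ha, VForm.const K ⟨a, ha⟩⟩
      · exact ⟨ES.polFun_mem_BRing haux hA hj, VForm.polFun' K hj⟩
    | zero => exact ⟨zero_mem _, by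
        rw [show (⟨0, zero_mem _⟩ : BRing M P.ring) = 0 from rfl, map_zero]; exact VForm.zero⟩
    | one => exact ⟨one_mem _, by
        rw [show (⟨1, one_mem _⟩ : BRing M P.ring) = 1 from rfl]
        simpa using VForm.pow_p (hM := hM) (haux := haux) 1⟩
    | add g1 g2 _ _ i1 i2 =>
      obtain ⟨h1, v1⟩ := i1
      obtain ⟨h2, v2⟩ := i2
      refine ⟨add_mem h1 h2, ?_⟩
      rw [show (⟨g1 + g2, add_mem h1 h2⟩ : BRing M P.ring) = ⟨g1, h1⟩ + ⟨g2, h2⟩ from rfl, map_add]
      exact v1.add v2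
    | neg g _ ih =>
      obtain ⟨h1, v1⟩ := ih
      refine ⟨neg_mem h1, ?_⟩
      rw [show (⟨-g, neg_mem h1⟩ : BRing M P.ring) = (-1) * ⟨g, h1⟩ from Subtype.ext (by simp),
        map_mul]
      refine VForm.mul ?_ v1
      exact VForm.const K ⟨-1, neg_mem P.ring.one_mem⟩
    | mul g1 g2 _ _ i1 i2 =>
      obtain ⟨h1, v1⟩ := i1
      obtain ⟨h2, v2⟩ := i2
      refine ⟨mul_mem h1 h2, ?_⟩
      rw [show (⟨g1 * g2, mul_mem h1 h2⟩ : BRing M P.ring) = ⟨g1, h1⟩ * ⟨g2, h2⟩ from rfl, map_mul]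
      exact v1.mul v2
  set I := (Finset.univ.erase (1 : GalGrp M m)).powerset
  set a : Finset (GalGrp M m) → BRing M P.ring := fun S => ⟨sepA haux S, ES.sepA_mem haux hA S⟩
  set b : Finset (GalGrp M m) → BRing M P.ring := fun S => ⟨sepB haux S, ES.sepB_mem haux hA S⟩
  set R : GalGrp M m → BRing M P.ring →+* BRing M P.ring :=
    fun g => actR P (repG M m g)
  set Kt : Finset (GalGrp M m) → BRing M P.ring := fun S => ∑ g, R g (b S ^ p * f)
  have hcoe : ∀ g (x : BRing M P.ring), ((R g x : BRing M P.ring) : ℍ → ℂ) =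
      act (repG M m g) (x : ℍ → ℂ) := fun g x => rfl
  have hKt : ∀ S, (Kt S : ℍ → ℂ) ∈ ES.polRing haux P.ring := fun S => by
    have e : (Kt S : ℍ → ℂ) = trG M m (sepB haux S ^ p * (f : ℍ → ℂ)) := by
      rw [AddSubmonoidClass.coe_finsetSum]; rfl
    rw [e]
    have hm : sepB haux S ^ p * (f : ℍ → ℂ) ∈ BRing M P.ring :=
      mul_mem (pow_mem (ES.sepB_mem haux hA S) p) f.2
    exact ES.invariant_mem_polRing haux hA (ES.trG_mem hm) fun δ hδ =>
      ES.trG_invariant hm.1 hδ
  have hdelta : ∀ g, ∑ S ∈ I, a S * R g (b S) = if g = 1 then 1 else 0 := fun g => by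
    refine Subtype.ext ?_
    rw [AddSubmonoidClass.coe_finsetSum]
    have h := ES.sum_sepA_mul_act_sepB haux g
    rw [apply_ite Subtype.val]
    exact h
  have hR1 : R 1 f = f := Subtype.ext (by
    rw [hcoe]
    have := ES.act_eq_act_repG f.2.1 (1 : Gamma m)
    rw [Subgroup.coe_one, ES.act_one, QuotientGroup.mk_one] at this
    exact this.symm)
  have key : rH P hM 1 f = ∑ S ∈ I, rH P hM 1 (a S) ^ p * rH P hM 1 (Kt S) := by
    calc rH P hM 1 f
        = ∑ g, rH P hM 1 (∑ S ∈ I, a S * R g (b S)) ^ p * rH P hM 1 (R g f) := by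
          simp only [hdelta]
          rw [Finset.sum_eq_single (1 : GalGrp M m) (fun g _ hg => by
            rw [if_neg hg, map_zero, zero_pow hp.out.ne_zero, zero_mul]) (by simp),
            if_pos rfl, map_one, one_pow, one_mul, hR1]
      _ = _ := by
          simp only [map_sum, sum_pow_char, Finset.sum_mul, Kt, Finset.mul_sum, map_mul, map_pow,
            mul_pow]
          rw [Finset.sum_comm]
          exact Finset.sum_congr rfl fun S _ => Finset.sum_congr rfl fun g _ => by ring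
  rw [key]
  exact VForm.sum _ fun S _ => (VForm.pow_p _).mul (hpol _ (hKt S))

/-- Series of distinct orders have nonzero sum. -/
theorem sum_ne_zero_of_orders {ι L : Type*} [Field L] {s : Finset ι} {x : ι → LaurentSeries L}
    (hs : s.Nonempty) (hx : ∀ i ∈ s, x i ≠ 0)
    (hinj : ∀ i ∈ s, ∀ j ∈ s, (x i).order = (x j).order → i = j) : ∑ i ∈ s, x i ≠ 0 := by
  obtain ⟨i, hi, hmin⟩ := Finset.exists_min_image s (fun i => (x i).order) hs
  intro h
  have h1 := congrArg (fun t : LaurentSeries L => t.coeff (x i).order) h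
  simp only [HahnSeries.coeff_sum, HahnSeries.coeff_zero] at h1
  rw [Finset.sum_eq_single i (fun j hj hne => HahnSeries.coeff_eq_zero_of_lt_order
    (lt_of_le_of_ne (hmin j hj) fun e => hne (hinj i hi j hj e).symm))
    (fun hn => absurd hi hn)] at h1
  exact HahnSeries.coeff_order_eq_zero.not.mpr (hx i hi) h1

include haux K in
/-- **Roots.** -/
theorem exists_rootM {b : BRing M P.ring} {γ : SL(2, ℤ)} {r : LaurentSeries (ResField P)}
    (h : rH P hM γ b = r ^ p) : ∃ c, ∀ δ, rH P hM δ b = rH P hM δ c ^ p := by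
  classical
  suffices H : ∀ b : BRing M P.ring, ∀ r, rH P hM 1 b = r ^ p →
      ∃ c, rH P hM 1 b = rH P hM 1 c ^ p by
    obtain ⟨c, hc⟩ := H (actR P γ b) r (by rw [rH_actR, mul_one]; exact h)
    refine ⟨actR P γ⁻¹ c, fun δ => ?_⟩
    rw [← map_pow] at hc
    have h2 := rH_congr hM haux (γ⁻¹ * δ) hc
    rw [rH_actR, mul_inv_cancel_left, map_pow] at h2
    rw [h2, rH_actR]
  intro b r hr
  obtain ⟨g, hg⟩ := vForm_all hM haux K b
  obtain ⟨w, hwM, hw0, hlead⟩ := order_vB (P := P) hM haux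
  set v := rH P hM 1 (vB hM haux)
  have hvord : v.order = w ∧ v ≠ 0 := by
    have hin := (vB hM haux : BRing M P.ring).2.2 1
    have hc : v.coeff w ≠ 0 := by
      show (rH P hM 1 (vB hM haux)).coeff w ≠ 0
      rw [rH_apply, coeff_red hin, rd_ne_zero_iff]
      exact P.abv_eq_one_of_unitIn hlead.unitIn_coeff
    have hne : v ≠ 0 := fun h0 => hc (by rw [h0]; rfl)
    refine ⟨le_antisymm (HahnSeries.order_le_of_coeff_ne_zero hc)
      (SGE.le_order (fun j hj => ?_) hne),
      hne⟩
    show (rH P hM 1 (vB hM haux)).coeff j = 0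
    rw [rH_apply, coeff_red hin, rd_eq_zero_iff]
    simp [hlead.coeff_of_lt hj]
  refine ⟨g 0, ?_⟩
  set gg : ℕ → LaurentSeries (ResField P) := fun i => rH P hM 1 (g i)
  set x : ℕ → LaurentSeries (ResField P) := fun i =>
    if i = 0 then (gg 0 - r) ^ p else v ^ i * gg i ^ p
  have hsum : ∑ i ∈ Finset.range p, x i = 0 := by
    have h0 : 0 ∈ Finset.range p := Finset.mem_range.mpr hp.out.pos
    rw [← Finset.add_sum_erase _ _ h0]
    have e : ∑ i ∈ (Finset.range p).erase 0, x i =
        ∑ i ∈ (Finset.range p).erase 0, v ^ i * gg i ^ p :=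
      Finset.sum_congr rfl fun i hi => if_neg (Finset.ne_of_mem_erase hi)
    rw [e, show x 0 = v ^ 0 * gg 0 ^ p - r ^ p by simp [x, sub_pow_char], sub_add_eq_add_sub,
      Finset.add_sum_erase _ (fun i => v ^ i * gg i ^ p) h0, ← hg, hr, sub_self]
  by_contra hne
  have hx0 : x 0 ≠ 0 := by
    intro h0
    simp only [x, if_pos] at h0
    exact hne (by rw [hr, show r = gg 0 from (sub_eq_zero.mp (eq_zero_of_pow_eq_zero h0)).symm])
  set s := (Finset.range p).filter (fun i => x i ≠ 0)
  have hp' : Int.gcd (w : ℤ) p = 1 := by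
    rw [Int.gcd_natCast_natCast]; exact hM.coprime_dvd_left hwM
  refine sum_ne_zero_of_orders (s := s) (x := x)
    ⟨0, Finset.mem_filter.mpr ⟨Finset.mem_range.mpr hp.out.pos, hx0⟩⟩
    (fun i hi => (Finset.mem_filter.mp hi).2) ?_ ?_
  · have hord : ∀ i ∈ s, ∃ z : ℤ, (x i).order = i * w + p * z := by
      intro i hi
      rcases eq_or_ne i 0 with rfl | hi0
      · exact ⟨(gg 0 - r).order, by simp [x]⟩
      · have hxi := (Finset.mem_filter.mp hi).2
        simp only [x, if_neg hi0] at hxi ⊢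
        refine ⟨(gg i).order, ?_⟩
        rw [HahnSeries.order_mul (left_ne_zero_of_mul hxi) (right_ne_zero_of_mul hxi),
          Curve.order_pow, Curve.order_pow, hvord.1]
    intro i hi j hj e
    obtain ⟨zi, hzi⟩ := hord i hi
    obtain ⟨zj, hzj⟩ := hord j hj
    have hd : (p : ℤ) ∣ ((i : ℤ) - j) * w := ⟨zj - zi, by linarith⟩
    have hcop : IsCoprime (p : ℤ) (w : ℤ) := Int.isCoprime_iff_gcd_eq_one.mpr (by
      rw [Int.gcd_comm]; exact hp')
    obtain ⟨t, ht⟩ := hcop.dvd_of_dvd_mul_right hd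
    have hi' := Finset.mem_range.mp (Finset.mem_filter.mp hi).1
    have hj' := Finset.mem_range.mp (Finset.mem_filter.mp hj).1
    have ht0 : t = 0 := by
      rcases lt_trichotomy t 0 with h | h | h
      · nlinarith
      · exact h
      · nlinarith
    subst ht0
    omega
  · rw [Finset.sum_filter_ne_zero]
    exact hsum

end FermatAgent.PSEMI.LevelMp
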