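import Fermat.Agent.PSEMI.LevelMp.RootM
import Mathlib.FieldTheory.Finite.Basic

/-!
# Roots of reductions at level `Γ₀(p) ∩ Γ(M)`

The level `M` functions which are the `∞` component of a reduction vanishing on the other
component form an ideal containing `c ^ (p ^ (2N)) - c`, by the Kronecker congruences.
-/

set_option autoImplicit false

open UpperHalfPlane CongruenceSubgroup
open scoped MatrixGroups

noncomputable section

namespace FermatAgent.PSEMI.LevelMp

open FermatAgent.ES (CPlace AuxLevel BSub BRing SerIn lexp lexp_eq hasLExp_lexp act twistSer zetaC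
  ratio scaleVec vmul Adm ratioSeries)
open FermatAgent.Curve.Red (ResField)
open FermatAgent.BAD (LSub LRing mem_LRing trB dilFun expandL atkin atkinL raiseL
  adm_smul smul_ne_zero' kron_zero')

variable {p M : ℕ} [hp : Fact p.Prime] [NeZero M] {P : CPlace p} (hM : M.Coprime p)

include hM

variable (P) in
/-- The component containing `0`, read at `∞` through the Atkin operator. -/
def cO : LRing p M P.ring →+* LaurentSeries (ResField P) :=
  (cI P).comp (atkinL hM (zetaC_mem P _))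

omit hM in
theorem cI_eq_zero_of_small {f : LRing p M P.ring}
    (h : ∀ n, P.abv ((lexp (p * M) 1 (f : ℍ → ℂ)).coeff n) < 1) : cI P f = 0 :=
  (red_eq_zero_iff (serIn_inf f.2 (one_mem _))).mpr fun n => by
    have := h (p * n)
    rwa [lexp_inf_level f.2.2 (one_mem _), BAD.expandL_coeff_mul] at this

theorem cO_eq_zero {f : LRing p M P.ring} (h : f ∈ BAD.pZero (q := p) (M := M) (le_refl P.ring)) :
    cO P hM f = 0 :=
  cI_eq_zero_of_small ((BAD.mem_pInf le_rfl).mp
    (BAD.atkinL_mem_pInf le_rfl hM (zetaC_mem P _) h) 1 (one_mem _))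

variable (P) in
/-- The `∞` components of reductions vanishing on the other component. -/
def kSet : Ideal (BRing M P.ring) where
  carrier := {c | ∃ G, cI P G = rH P hM 1 c ∧ cO P hM G = 0}
  zero_mem' := ⟨0, by rw [map_zero, map_zero], map_zero _⟩
  add_mem' := by
    rintro a b ⟨G, h1, h2⟩ ⟨H, h3, h4⟩
    exact ⟨G + H, by rw [map_add, map_add, h1, h3], by rw [map_add, h2, h4, add_zero]⟩
  smul_mem' := by
    rintro d c ⟨G, h1, h2⟩
    exact ⟨raiseL M d * G, by rw [map_mul, cI_raise, h1, smul_eq_mul, map_mul],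
      by rw [map_mul, h2, mul_zero]⟩

theorem mem_kSet_of_rH {a b : BRing M P.ring} (h : rH P hM 1 a = rH P hM 1 b)
    (hb : b ∈ kSet P hM) : a ∈ kSet P hM := by
  obtain ⟨G, h1, h2⟩ := hb
  exact ⟨G, h1.trans h.symm, h2⟩

variable (P) in
/-- `c ^ (p ^ (2N)) ≡ c` modulo `kSet`, for some `N > 0`. -/
def Periodic (c : BRing M P.ring) : Prop :=
  ∃ N, 0 < N ∧ c ^ p ^ (2 * N) - c ∈ kSet P hM

theorem Periodic.mul_period {c : BRing M P.ring} {N : ℕ} (h : c ^ p ^ (2 * N) - c ∈ kSet P hM)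
    (k : ℕ) : c ^ p ^ (2 * (N * k)) - c ∈ kSet P hM := by
  induction k with
  | zero => simp
  | succ k ih =>
    have e : 2 * (N * (k + 1)) = 2 * N + 2 * (N * k) := by ring
    rw [e, pow_add, pow_mul, ← sub_add_sub_cancel _ (c ^ p ^ (2 * (N * k))) c]
    exact add_mem (Ideal.mem_of_dvd _ (sub_dvd_pow_sub_pow _ _ _) h) ih

theorem rH_pow_add (a b : BRing M P.ring) (n : ℕ) :
    rH P hM 1 ((a + b) ^ p ^ n) = rH P hM 1 (a ^ p ^ n + b ^ p ^ n) := by
  rw [map_pow, map_add, add_pow_char_pow, map_add, map_pow, map_pow]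

theorem periodic_add {a b : BRing M P.ring} (ha : Periodic P hM a) (hb : Periodic P hM b) :
    Periodic P hM (a + b) := by
  obtain ⟨N, hN, h1⟩ := ha
  obtain ⟨N', hN', h2⟩ := hb
  refine ⟨N * N', Nat.mul_pos hN hN', ?_⟩
  refine mem_kSet_of_rH hM (b := (a ^ p ^ (2 * (N * N')) - a) + (b ^ p ^ (2 * (N * N')) - b)) ?_
    (add_mem (Periodic.mul_period hM h1 N')
      (by rw [mul_comm N N']; exact Periodic.mul_period hM h2 N))
  rw [map_sub, rH_pow_add]
  simp only [map_add, map_sub]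
  ring

theorem periodic_mul {a b : BRing M P.ring} (ha : Periodic P hM a) (hb : Periodic P hM b) :
    Periodic P hM (a * b) := by
  obtain ⟨N, hN, h1⟩ := ha
  obtain ⟨N', hN', h2⟩ := hb
  refine ⟨N * N', Nat.mul_pos hN hN', ?_⟩
  have h1' := Periodic.mul_period hM h1 N'
  have h2' := Periodic.mul_period hM h2 N
  rw [mul_comm N' N] at h2'
  rw [mul_pow, show a ^ p ^ (2 * (N * N')) * b ^ p ^ (2 * (N * N')) - a * b =
    b ^ p ^ (2 * (N * N')) * (a ^ p ^ (2 * (N * N')) - a) +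
      a * (b ^ p ^ (2 * (N * N')) - b) by ring]
  exact add_mem (Ideal.mul_mem_left _ _ h1') (Ideal.mul_mem_left _ _ h2')

theorem periodic_ratio {v w v' w' : Fin 2 → ZMod M} (hv : v ≠ 0) (hw : w ≠ 0) (h' : Adm M v' w') :
    Periodic P hM ⟨ratio M v w v' w', ES.ratio_mem_BRing (P.goodRoot hM) hv hw h'⟩ := by
  have hA := P.goodRoot hM
  have hu : IsUnit (p : ZMod M) := (ZMod.isUnit_iff_coprime p M).mpr hM.symm
  set r : BRing M P.ring := ⟨ratio M v w v' w', ES.ratio_mem_BRing hA hv hw h'⟩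
  have hz : zetaC (p * M) ∈ P.ring := zetaC_mem P _
  have hstep : ∀ {a b c d : Fin 2 → ZMod M} (ha : a ≠ 0) (hb : b ≠ 0) (hcd : Adm M c d),
      (⟨ratio M a b c d, ES.ratio_mem_BRing hA ha hb hcd⟩ : BRing M P.ring) ^ p ^ 2 -
        ⟨ratio M ((p : ZMod M) • a) ((p : ZMod M) • b) ((p : ZMod M) • c) ((p : ZMod M) • d),
          ES.ratio_mem_BRing hA (smul_ne_zero' hu ha) (smul_ne_zero' hu hb) (adm_smul hu hcd)⟩ ∈
        kSet P hM := by
    intro a b c d ha hb hcd
    set x : BRing M P.ring := ⟨ratio M a b c d, ES.ratio_mem_BRing hA ha hb hcd⟩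
    set y : BRing M P.ring := ⟨ratio M ((p : ZMod M) • a) ((p : ZMod M) • b) ((p : ZMod M) • c)
      ((p : ZMod M) • d),
      ES.ratio_mem_BRing hA (smul_ne_zero' hu ha) (smul_ne_zero' hu hb) (adm_smul hu hcd)⟩
    set xs : BRing M P.ring := ⟨ratio M (scaleVec (p : ZMod M) a) (scaleVec (p : ZMod M) b)
      (scaleVec (p : ZMod M) c) (scaleVec (p : ZMod M) d),
      ES.ratio_mem_BRing hA (ES.scaleVec_ne_zero hu ha) (ES.scaleVec_ne_zero hu hb) (hcd.scale hu)⟩
    set d1 : LRing p M P.ring := ⟨dilFun p (xs : ℍ → ℂ), BAD.dilFun_mem_LRing hM hz xs.2⟩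
    refine ⟨d1 ^ p - raiseL M y, ?_, cO_eq_zero hM ((BAD.mem_pZero le_rfl).mpr fun γ hγ n => ?_)⟩
    · have h1 : cI P d1 = rH P hM 1 (x ^ p) := by
        rw [← cI_raise hM (x ^ p), ← sub_eq_zero, ← map_sub]
        refine cI_eq_zero_of_small fun n => ?_
        exact (BAD.kron_inf (P := P) hM ha hb hcd (one_mem _) n).trans_lt P.lt_one
      simp only [map_sub, map_pow, h1, cI_raise hM]
      rw [← pow_mul, sq]
    · exact (kron_zero' hM ha hb hcd hγ n).trans_lt P.lt_one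
  have hiter : ∀ k : ℕ, ∃ (hkv : ((p : ZMod M) ^ k) • v ≠ 0) (hkw : ((p : ZMod M) ^ k) • w ≠ 0)
      (hk' : Adm M (((p : ZMod M) ^ k) • v') (((p : ZMod M) ^ k) • w')),
      r ^ p ^ (2 * k) - ⟨ratio M (((p : ZMod M) ^ k) • v) (((p : ZMod M) ^ k) • w)
        (((p : ZMod M) ^ k) • v') (((p : ZMod M) ^ k) • w'),
        ES.ratio_mem_BRing hA hkv hkw hk'⟩ ∈ kSet P hM := by
    intro k
    induction k with
    | zero =>
      refine ⟨by simpa using hv, by simpa using hw, by simpa using h', ?_⟩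
      simp [r]
    | succ k ih =>
      obtain ⟨hkv, hkw, hk', hmem⟩ := ih
      have hpk : IsUnit ((p : ZMod M) ^ (k + 1)) := hu.pow _
      refine ⟨smul_ne_zero' hpk hv, smul_ne_zero' hpk hw, adm_smul hpk h', ?_⟩
      have h2 := hstep hkv hkw hk'
      simp only [smul_smul, ← pow_succ'] at h2
      rw [show 2 * (k + 1) = 2 * k + 2 by ring, pow_add, pow_mul]
      have := add_mem (Ideal.mem_of_dvd _ (sub_dvd_pow_sub_pow _ _ (p ^ 2)) hmem) h2
      rw [sub_add_sub_cancel] at this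
      exact this
  have hord : ((p : ZMod M)) ^ M.totient = 1 := by
    have := ZMod.pow_totient (ZMod.unitOfCoprime p hM.symm)
    have h2 := congrArg Units.val this
    rw [Units.val_pow_eq_pow_val, ZMod.coe_unitOfCoprime, Units.val_one] at h2
    exact h2
  obtain ⟨hkv, hkw, hk', hmem⟩ := hiter M.totient
  refine ⟨M.totient, Nat.totient_pos.mpr (NeZero.pos M), ?_⟩
  convert hmem using 3
  simp [hord]

variable {m : ℕ} (haux : AuxLevel M m) (K : Coeffs P)
include haux K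

theorem periodic_all (c : BRing M P.ring) : Periodic P hM c := by
  have hA := P.goodRoot hM
  suffices H : ∀ g, g ∈ Subring.closure (ES.ratioGens M P.ring) → ∃ h : g ∈ BRing M P.ring,
      Periodic P hM ⟨g, h⟩ from (H _ (ES.BRing_le_closure haux hA c.2)).2
  intro g hg
  have hself : ∀ a : BRing M P.ring, (∃ n, 0 < n ∧ rH P hM 1 a ^ p ^ n = rH P hM 1 a) →
      Periodic P hM a := by
    rintro a ⟨n, hn, h⟩
    refine ⟨n, hn, mem_kSet_of_rH hM (b := 0) ?_ (zero_mem _)⟩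
    rw [map_sub, map_pow, map_zero, sub_eq_zero, two_mul, pow_add, pow_mul, h, h]
  induction hg using Subring.closure_induction with
  | mem g hg =>
    rcases hg with ⟨a, ha, rfl⟩ | ⟨v, w, v', w', hv, hw, h', rfl⟩
    · refine ⟨ES.const_mem_BRing ha, hself _ ?_⟩
      obtain ⟨n, hn, hx⟩ := K.resFix (rd ⟨a, ha⟩)
      refine ⟨n, hn, ?_⟩
      rw [rH_apply, show lexp M 1 (fun _ : ℍ => a) = HahnSeries.C a from
        lexp_eq (ES.HasLExp.const _), red_C ha, ← map_pow, hx]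
    · exact ⟨_, periodic_ratio hM hv hw h'⟩
  | zero =>
    exact ⟨zero_mem _, hself _ ⟨1, one_pos, by
      rw [show (⟨0, zero_mem _⟩ : BRing M P.ring) = 0 from rfl, map_zero,
        zero_pow (pow_ne_zero _ hp.out.ne_zero)]⟩⟩
  | one =>
    exact ⟨one_mem _, hself _ ⟨1, one_pos, by
      rw [show (⟨1, one_mem _⟩ : BRing M P.ring) = 1 from rfl, map_one, one_pow]⟩⟩
  | add g1 g2 _ _ i1 i2 =>
    obtain ⟨h1, v1⟩ := i1
    obtain ⟨h2, v2⟩ := i2
    refine ⟨add_mem h1 h2, ?_⟩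
    rw [show (⟨g1 + g2, add_mem h1 h2⟩ : BRing M P.ring) = ⟨g1, h1⟩ + ⟨g2, h2⟩ from Subtype.ext rfl]
    exact periodic_add hM v1 v2
  | neg g _ ih =>
    obtain ⟨h1, v1⟩ := ih
    refine ⟨neg_mem h1, ?_⟩
    rw [show (⟨-g, neg_mem h1⟩ : BRing M P.ring) = (-1) * ⟨g, h1⟩ from Subtype.ext (by simp)]
    refine periodic_mul hM (hself _ ?_) v1
    obtain ⟨n, hn, hx⟩ := K.resFix (-1)
    refine ⟨n, hn, ?_⟩
    rw [map_neg, map_one, ← map_one (HahnSeries.C : ResField P →+* _), ← map_neg, ← map_pow, hx]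
  | mul g1 g2 _ _ i1 i2 =>
    obtain ⟨h1, v1⟩ := i1
    obtain ⟨h2, v2⟩ := i2
    refine ⟨mul_mem h1 h2, ?_⟩
    rw [show (⟨g1 * g2, mul_mem h1 h2⟩ : BRing M P.ring) = ⟨g1, h1⟩ * ⟨g2, h2⟩ from Subtype.ext rfl]
    exact periodic_mul hM v1 v2

/-- `kSet` is radical at `p`-th powers. -/
theorem mem_kSet_of_pow {c : BRing M P.ring} (h : c ^ p ∈ kSet P hM) : c ∈ kSet P hM := by
  obtain ⟨N, hN, hc⟩ := periodic_all hM haux K c
  obtain ⟨k, hk⟩ : ∃ k, 2 * N = k + 1 := ⟨2 * N - 1, by omega⟩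
  rw [hk, pow_succ', pow_mul] at hc
  have h2 : (c ^ p) ^ p ^ k ∈ kSet P hM :=
    Ideal.pow_mem_of_mem _ h _ (pow_pos hp.out.pos k)
  have := sub_mem h2 hc
  rwa [sub_sub_cancel] at this

/-- The cusps which decide. -/
theorem basic_spec' (f : ℍ → ℂ) (hf : f ∈ (model p M hM).Fun)
    (hfi : (model p M hM).Integral P f) (c1 : CI M)
    (h : ∀ b : Bool, ∃ a, (model p M hM).redT P f (c1, b) = a ^ p) :
    ∀ x, ∃ a, (model p M hM).redT P f x = a ^ p := by
  set F : LRing p M P.ring := ⟨f, mem_LRing_of_model hM hf hfi⟩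
  rintro ⟨c, b⟩
  obtain ⟨a, ha⟩ := h b
  cases b
  · rw [show f = (F : ℍ → ℂ) from rfl, redT_inf hM F] at ha ⊢
    obtain ⟨d, hd⟩ := exists_rootM hM haux K ha
    exact ⟨_, hd _⟩
  · rw [show f = (F : ℍ → ℂ) from rfl, redT_zero hM F] at ha ⊢
    obtain ⟨d, hd⟩ := exists_rootM hM haux K ha
    exact ⟨_, hd _⟩

/-- The reductions are closed under `p`-th roots. -/
theorem rootClosed' (a : (model p M hM).C → LaurentSeries (ResField P))
    (h : ∃ f ∈ (model p M hM).Fun, (model p M hM).Integral P f ∧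
      (model p M hM).redT P f = a ^ p) :
    ∃ g ∈ (model p M hM).Fun, (model p M hM).Integral P g ∧ (model p M hM).redT P g = a := by
  obtain ⟨f0, hf0, hf0i, hfa⟩ := h
  have hz : zetaC (p * M) ∈ P.ring := zetaC_mem P _
  set f : LRing p M P.ring := ⟨f0, mem_LRing_of_model hM hf0 hf0i⟩
  set c1 : CI M := ((1 : SL(2, ℤ)) : CI M)
  have haI : ∀ c, rH P hM (repI hM c) (trB f) = a (c, false) ^ p := fun c => by
    rw [← redT_inf hM f c]; exact congrFun hfa _
  have haO : ∀ c, rH P hM (repI hM c) (trB (atkinL hM hz f)) = a (c, true) ^ p := fun c => by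
    rw [← redT_zero hM f c]; exact congrFun hfa _
  obtain ⟨c, hc⟩ := exists_rootM hM haux K (haI c1)
  obtain ⟨dO, hdO⟩ := exists_rootM hM haux K (haO c1)
  set f1 := f - raiseL M c ^ p
  have hI1 : cI P f1 = 0 := by
    rw [map_sub, map_pow, cI_raise hM, cI_eq hM, hc 1, sub_self]
  set c0 := dO - trB (atkinL hM hz (raiseL M c))
  have hg : cI P (atkinL hM hz f1) = rH P hM 1 (c0 ^ p) := by
    rw [map_sub, map_pow (atkinL hM hz), map_sub, map_pow, cI_eq hM, cI_eq hM, hdO 1, map_pow,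
      map_sub, sub_pow_char]
  obtain ⟨δ, hδ, hsq⟩ := BAD.exists_atkin_sq (q := p) hM
  have hsq' : ∀ H : LRing p M P.ring, cI P H = 0 → cO P hM (atkinL hM hz H) = 0 := by
    intro H hH
    show red _ = _
    rw [show ((atkinL hM (zetaC_mem P _) (atkinL hM hz H) : LRing p M P.ring) : ℍ → ℂ) =
      act δ (H : ℍ → ℂ) from hsq _, ES.lexp_act, mul_one, red_inf_eq hM H hδ,
      ← map_zero (rH P hM δ)]
    exact rH_congr hM haux δ (γ := 1) (by rw [← cI_eq, hH, map_zero])
  have hmem : c0 ^ p ∈ kSet P hM := ⟨atkinL hM hz f1, hg, hsq' f1 hI1⟩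
  obtain ⟨G, hG1, hG2⟩ := mem_kSet_of_pow hM haux K hmem
  set H : LRing p M P.ring := (BAD.atkinEquiv hM hz).symm G
  have hH : atkinL hM hz H = G := (BAD.atkinEquiv hM hz).apply_symm_apply G
  have hH1 : cI P H = 0 := by
    have h1 : cI P (atkinL hM (zetaC_mem P _) G) = 0 := hG2
    rw [← hH] at h1
    obtain e : ((atkinL hM (zetaC_mem P _) (atkinL hM hz H) : LRing p M P.ring) : ℍ → ℂ) =
      act δ (H : ℍ → ℂ) := hsq _
    change red _ = _ at h1
    rw [e, ES.lexp_act, mul_one, red_inf_eq hM H hδ, ← map_zero (rH P hM δ)] at h1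
    rw [cI_eq, ← map_zero (rH P hM 1)]
    exact rH_congr hM haux 1 h1
  set res := raiseL M c + H
  have hinj : ∀ x y : LaurentSeries (ResField P), x ^ p = y ^ p → x = y := fun x y e =>
    sub_eq_zero.mp (eq_zero_of_pow_eq_zero (n := p) (by rw [sub_pow_char, e, sub_self]))
  refine ⟨res, (mem_Fun_iff hM).mpr res.2.2, (integral_iff hM res.2.2).mpr res.2,
    funext fun x => ?_⟩
  rcases x with ⟨cc, b⟩
  cases b
  · refine hinj _ _ ?_
    rw [redT_inf hM res, ← haI, hc, ← map_pow, ← map_pow]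
    refine rH_congr hM haux _ (γ := 1) ?_
    rw [map_pow, map_pow, ← cI_eq, map_add, hH1, add_zero, cI_raise hM]
  · refine hinj _ _ ?_
    rw [redT_zero hM res, ← haO, hdO, ← map_pow, ← map_pow]
    refine rH_congr hM haux _ (γ := 1) ?_
    rw [map_pow, map_pow, ← cI_eq, map_add, hH, map_add, hG1, cI_eq hM, map_sub, add_sub_cancel]

end FermatAgent.PSEMI.LevelMp
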