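import Fermat.Agent.PSEMI.LevelMp.Bound
import Fermat.Agent.BAD.Trace

/-!
# A unit with the same pole at all cusps of type `∞`

`W(τ) / W(p τ)` for `W` the product of all translates of the auxiliary form: invariant under
`Γ₀(p)`, with a pole of order `(p - 1) ord W` at the cusps of type `∞` and an integral expansion
with a zero at those of type `0`.
-/

set_option autoImplicit false

open UpperHalfPlane CongruenceSubgroup
open scoped MatrixGroups

noncomputable section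

namespace FermatAgent.PSEMI.LevelMp

open FermatAgent.ES (CPlace AuxLevel BSub BRing SerIn HasLExp lexp lexp_eq hasLExp_lexp act twistSer
  zetaC LeadUnit vmul auxW refA refB dif)
open FermatAgent.BAD (lam LSub LRing mem_LRing dilPt ctrPt dilFun expandL atkin wSer)
open FermatAgent.Curve (SGE)

variable {p M m : ℕ} [hp : Fact p.Prime] [NeZero M] (haux : AuxLevel M m)

instance fintype_modM : Fintype (SL(2, ℤ) ⧸ Gamma M) := Fintype.ofFinite _

/-- The product of all translates of the auxiliary form. -/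
def wTot : ℍ → ℂ := fun τ =>
  ∏ x : SL(2, ℤ) ⧸ Gamma M, dif M (vmul M (refB haux.dvd) x.out) (vmul M (refA haux.dvd) x.out) τ

/-- Its series. -/
def wTotSer : LaurentSeries ℂ := ∏ x : SL(2, ℤ) ⧸ Gamma M, wSer haux x.out

/-- The number of factors. -/
def wDeg (M : ℕ) [NeZero M] : ℕ := 2 * Fintype.card (SL(2, ℤ) ⧸ Gamma M)

theorem wTot_ne_zero (τ : ℍ) : wTot haux τ ≠ 0 :=
  Finset.prod_ne_zero_iff.mpr fun _ _ => ((ES.adm_ref haux).mul _).dif_ne_zero τ

theorem wTot_smul (γ : SL(2, ℤ)) (τ : ℍ) :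
    wTot haux (γ • τ) = UpperHalfPlane.denom γ τ ^ wDeg M * wTot haux τ := by
  have := Gamma_normal M
  unfold wTot wDeg
  simp only [ES.dif_smul, Finset.prod_mul_distrib, Finset.prod_const, Finset.card_univ, ← pow_mul]
  refine congrArg (_ * ·) ?_
  refine Fintype.prod_equiv (Equiv.mulRight ((γ : SL(2, ℤ)) : SL(2, ℤ) ⧸ Gamma M)) _ _ fun x => ?_
  obtain ⟨h, hh⟩ := QuotientGroup.mk_out_eq_mul (Gamma M) (x.out * γ)
  simp only [Equiv.coe_mulRight]
  rw [show x * (γ : SL(2, ℤ) ⧸ Gamma M) =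
    ((x.out * γ : SL(2, ℤ)) : SL(2, ℤ) ⧸ Gamma M) by rw [QuotientGroup.mk_mul,
      QuotientGroup.out_eq'], hh]
  simp only [ES.vmul_mul, ES.vmul_of_mem h.2]

theorem hasLExp_wTot : HasLExp M (wTot haux) (wTotSer haux) :=
  (HasLExp.prod Finset.univ fun x _ => BAD.hasLExp_auxW_conj haux x.out).congr_fun fun τ => by
    simp [wTot]

/-- The order of the product. -/
def wOrd : ℕ := ∑ x : SL(2, ℤ) ⧸ Gamma M,
  min (ES.leadIdx (vmul M (refB haux.dvd) x.out)) (ES.leadIdx (vmul M (refA haux.dvd) x.out))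

theorem leadUnit_wTot {A : Subring ℂ} (hA : ES.GoodRoot M A (zetaC M)) :
    LeadUnit A (wTotSer haux) (wOrd haux) := by
  classical
  unfold wTotSer wOrd
  refine Finset.induction_on (Finset.univ : Finset (SL(2, ℤ) ⧸ Gamma M))
    ?_ fun x s hx ih => ?_
  · simpa using LeadUnit.one
  rw [Finset.prod_insert hx, Finset.sum_insert hx, Nat.cast_add]
  have h := (ES.adm_ref haux).mul x.out
  exact (ES.leadUnit_difLaurent hA h.left h.right h.ne h.ne_neg).mul ih

/-- The product of all translates of the auxiliary form has positive order. -/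
theorem wOrd_pos : 0 < wOrd haux := by
  have := haux.neZero
  set g : SL(2, ℤ) := ⟨!![1, 0; 1, 1], by simp [Matrix.det_fin_two_of]⟩
  set x : SL(2, ℤ) ⧸ Gamma M := (g : SL(2, ℤ) ⧸ Gamma M)
  refine lt_of_lt_of_le ?_ (Finset.single_le_sum (fun _ _ => Nat.zero_le _) (Finset.mem_univ x))
  obtain ⟨h, hh⟩ := QuotientGroup.mk_out_eq_mul (Gamma M) g
  have hr : ((M / m : ℕ) : ZMod M) ≠ 0 := by
    intro h0
    have h1 := Nat.le_of_dvd (Nat.div_pos (Nat.le_of_dvd (NeZero.pos M) haux.dvd) (NeZero.pos m))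
      ((ZMod.natCast_eq_zero_iff _ _).mp h0)
    have h2 : M / m < M := Nat.div_lt_self (NeZero.pos M) (by
      have := ES.two_le haux
      omega)
    omega
  rw [show Quotient.out x = g * (h : SL(2, ℤ)) from hh, lt_min_iff]
  simp only [ES.vmul_mul, ES.vmul_of_mem h.2, Nat.pos_iff_ne_zero, ne_eq, ES.leadIdx_eq_zero]
  have e0 : ES.embHom haux.dvd (0 : ZMod m) = 0 := map_zero _
  have e1 : ES.embHom haux.dvd (1 : ZMod m) = ((M / m : ℕ) : ZMod M) := by
    have := ES.embHom_intCast haux.dvd (1 : ℤ)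
    simpa using this
  constructor <;>
    simp [vmul, refA, refB, ES.embVec, ES.baseVec, g, ES.modMat, Matrix.vecMul, dotProduct,
      Fin.sum_univ_two, e0, e1, hr]

variable (p) in
/-- `W(τ) / W(p τ)`. -/
def qUnit : ℍ → ℂ := fun τ => wTot haux τ / wTot haux (dilPt p τ)

theorem act_qUnit {γ : SL(2, ℤ)} (hγ : γ ∈ Gamma0 p) : act γ (qUnit p haux) = qUnit p haux := by
  obtain ⟨γ', -, -, h10, h11, h⟩ := BAD.exists_dil_conj p γ (BAD.mem_Gamma0_dvd.mp hγ)
  funext τ
  rw [ES.act_apply, qUnit, h, wTot_smul, wTot_smul, BAD.denom_dil_conj h10 h11,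
    mul_div_mul_left _ _ (pow_ne_zero _ (UpperHalfPlane.denom_ne_zero _ τ))]
  rfl

theorem twist_ser_ne_zero {c : ℂ} (hc : c ≠ 0) : twistSer c (wTotSer haux) ≠ 0 :=
  BAD.twistSer_ne_zero hc (leadUnit_wTot haux (ES.zetaC_goodRoot_top)).ne_zero

/-- The series at the cusps of type `∞`. -/
theorem hasLExp_qUnit_inf {γ : SL(2, ℤ)} (hγ : γ ∈ Gamma0 p) :
    HasLExp M (act γ (qUnit p haux)) (wTotSer haux * (expandL p (wTotSer haux))⁻¹) := by
  rw [act_qUnit haux hγ]
  refine ((hasLExp_wTot haux).mul ((BAD.hasLExp_dilFun p (hasLExp_wTot haux)).inv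
    (fun τ => wTot_ne_zero haux _) ((map_ne_zero_iff _ (BAD.expandL_injective p)).mpr
      (leadUnit_wTot haux ES.zetaC_goodRoot_top).ne_zero))).congr_fun fun τ => ?_
  rw [qUnit, Pi.mul_apply, Pi.inv_apply, BAD.dilFun_apply, div_eq_mul_inv]

variable (hM : M.Coprime p)
include hM

/-- The series at the cusps of type `0`. -/
theorem hasLExp_qUnit_zero {γ : SL(2, ℤ)} (hγ : γ ∉ Gamma0 p) :
    ∃ j : ℕ, HasLExp (p * M) (act γ (qUnit p haux))
      (HahnSeries.C ((p : ℂ) ^ wDeg M) * (expandL p (wTotSer haux) *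
        twistSer (zetaC (p * M) ^ j) (wTotSer haux)⁻¹)) := by
  obtain ⟨j, -, hjd⟩ := BAD.exists_ctr_index p hp.out hM γ fun hd => hγ (BAD.mem_Gamma0_dvd.mpr hd)
  obtain ⟨γ', -, -, h10, h11, h⟩ := BAD.exists_ctr_conj p γ j hjd
  refine ⟨j, ?_⟩
  have hz : zetaC (p * M) ^ j ≠ 0 :=
    pow_ne_zero _ ((ES.zetaC_isPrimitiveRoot (p * M)).ne_zero (NeZero.ne (p * M)))
  rw [← BAD.twistSer_inv hz (leadUnit_wTot haux ES.zetaC_goodRoot_top).ne_zero]
  have e1 := BAD.hasLExp_raise p (hasLExp_wTot haux)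
  have e2 := BAD.hasLExp_ctrPt p (hasLExp_wTot haux) j
  refine ((HasLExp.const ((p : ℂ) ^ wDeg M)).mul (e1.mul (e2.inv (fun τ => wTot_ne_zero haux _)
    (twist_ser_ne_zero haux hz)))).congr_fun fun τ => ?_
  rw [ES.act_apply, qUnit, h, wTot_smul, wTot_smul, ← BAD.denom_ctr_conj h10 h11 τ,
    Pi.mul_apply, Pi.mul_apply, Pi.inv_apply, mul_pow]
  have h1 := UpperHalfPlane.denom_ne_zero (γ' : GL (Fin 2) ℝ) (ctrPt p j τ)
  have h2 := wTot_ne_zero haux (ctrPt p j τ)
  field_simp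

theorem qUnit_mem_LSub : qUnit p haux ∈ LSub p M := by
  refine ⟨⟨fun γ hγ => act_qUnit haux (BAD.gamma_qM_le hγ).1, fun γ => ?_⟩,
    fun γ hγ => act_qUnit haux hγ.1⟩
  by_cases hγ : γ ∈ Gamma0 p
  · exact ⟨_, BAD.hasLExp_raise p (hasLExp_qUnit_inf haux hγ)⟩
  · exact ⟨_, (hasLExp_qUnit_zero haux hM hγ).choose_spec⟩

variable {P : CPlace p}

/-- At the cusps of type `∞` the unit has a pole of order `(p - 1) ord W` with unit coefficient. -/
theorem leadUnit_qUnit_inf {γ : SL(2, ℤ)} (hγ : γ ∈ Gamma0 p) :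
    LeadUnit P.ring (lexp M γ (qUnit p haux)) (-(((p - 1) * wOrd haux : ℕ) : ℤ)) := by
  rw [lexp_eq (hasLExp_qUnit_inf haux hγ)]
  have h := leadUnit_wTot haux (P.goodRoot hM)
  convert h.mul (leadUnit_expandL (p := p) h).inv using 1
  push_cast [Nat.cast_sub hp.out.one_le]
  ring

/-- At the cusps of type `0` the unit has an integral expansion with a zero of order `(p - 1) ord
W`. -/
theorem qUnit_zero {γ : SL(2, ℤ)} (hγ : γ ∉ Gamma0 p) :
    SerIn P.ring (lexp (p * M) γ (qUnit p haux)) ∧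
      SGE (((p - 1) * wOrd haux : ℕ) : ℤ) (lexp (p * M) γ (qUnit p haux)) := by
  obtain ⟨j, hj⟩ := hasLExp_qUnit_zero haux hM hγ
  rw [lexp_eq hj]
  have h := leadUnit_wTot haux (P.goodRoot hM)
  refine ⟨(SerIn.C (P.ring.pow_mem (natCast_mem P.ring p) _)).mul
    ((BAD.expandL_serIn h.serIn).mul (BAD.serIn_twist h.inv.serIn (zetaC_mem P _) j)), ?_⟩
  have e : (((p - 1) * wOrd haux : ℕ) : ℤ) = 0 + ((p : ℤ) * wOrd haux + -(wOrd haux : ℤ)) := by
    push_cast [Nat.cast_sub hp.out.one_le]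
    ring
  rw [e]
  refine SGE.mul (fun n hn => ?_) (SGE.mul (fun n hn => ?_) fun n hn => ?_)
  · rw [HahnSeries.C_apply, HahnSeries.coeff_single_of_ne hn.ne]
  · exact (leadUnit_expandL (p := p) h).coeff_of_lt hn
  · rw [ES.coeff_twistSer, h.inv.coeff_of_lt hn, zero_mul]

/-- The unit lies in the integral ring. -/
theorem qUnit_mem_LRing : qUnit p haux ∈ LRing p M P.ring := by
  refine mem_LRing.mpr ⟨qUnit_mem_LSub haux hM, fun γ => ?_⟩
  by_cases hγ : γ ∈ Gamma0 p
  · rw [lexp_inf_level (qUnit_mem_LSub haux hM) hγ]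
    exact BAD.expandL_serIn (leadUnit_qUnit_inf haux hM (P := P) hγ).serIn
  · exact (qUnit_zero haux hM hγ).1

end FermatAgent.PSEMI.LevelMp
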